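/-
S22 (finiteness of the Hecke algebra over the integers): shared definitions.

Route: Eichler--Shimura period polynomials.  For a cusp form `f` of weight `w + 2` on `Gamma0 N`
we build the Eichler integral `eich w f z x` (morally the integral of `f(t) (x - t)^w dt` from
the cusp at infinity to `z`) out of iterated decaying primitives, and the period polynomials
`per w f γ`.  The coefficients of the period polynomials span a finitely generated lattice of
linear functionals on the space of cusp forms which is stable under all Hecke operators and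
separates points; this forces the Hecke algebra to be a finitely generated module.

This file contains definitions only.
-/
import Mathlib
import Fermat.Prelude.Def_CuspForm_HeckeAlgebra

set_option autoImplicit false

noncomputable section

open UpperHalfPlane Polynomial
open scoped MatrixGroups ModularForm Manifold

namespace Fermat.Agent.S22

/-- Normalised weight `-w` right action of `GL (Fin 2) ℝ` (used only for positive determinant)
on functions on the upper half plane: `(bar w g φ) x = (denom g x) ^ w * φ (g • x)`. -/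
def bar (w : ℕ) (g : GL (Fin 2) ℝ) (φ : ℍ → ℂ) : ℍ → ℂ :=
  fun x => (denom g x) ^ w * φ (g • x)

/-- `F` is a holomorphic primitive of `f` on the upper half plane which tends to zero at the
cusp at infinity. -/
structure IsPrim (F f : ℍ → ℂ) : Prop where
  mdiff : MDiff F
  zero : IsZeroAtImInfty F
  deriv : ∀ z : ℍ, HasDerivAt (F ∘ ofComplex) (f z) (z : ℂ)

open Classical in
/-- The decaying primitive of `f` (junk value `0` if there is none). -/
def prim (f : ℍ → ℂ) : ℍ → ℂ :=
  if h : ∃ F, IsPrim F f then h.choose else 0

/-- Iterated decaying primitives: `iterPrim f 0 = f`, `iterPrim f (r + 1) = prim (iterPrim f r)`. -/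
def iterPrim (f : ℍ → ℂ) : ℕ → ℍ → ℂ
  | 0 => f
  | r + 1 => prim (iterPrim f r)

/-- Holomorphic, zero at the cusp at infinity, and periodic with some positive period. -/
structure Nice (f : ℍ → ℂ) : Prop where
  mdiff : MDiff f
  zero : IsZeroAtImInfty f
  per : ∃ h : ℝ, 0 < h ∧ Function.Periodic (f ∘ ofComplex) h

/-- The Eichler kernel.  If `G (r + 1)` is a primitive of `G r` for all `r`, then
`Phi w G z x = ∑ r ≤ w, w! / (w - r)! * (x - z) ^ (w - r) * G (r + 1) z`
has `z`-derivative `G 0 z * (x - z) ^ w`. -/
def Phi : ℕ → (ℕ → ℍ → ℂ) → ℍ → ℍ → ℂ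
  | 0, G, z, _ => G 1 z
  | w + 1, G, z, x =>
      ((x : ℂ) - (z : ℂ)) ^ (w + 1) * G 1 z + ((w : ℂ) + 1) * Phi w (fun r => G (r + 1)) z x

/-- The Eichler integral of `f` of weight `w + 2`, as a function of `z` (first argument) and of
the polynomial variable `x` (second argument). -/
def eich (w : ℕ) (f : ℍ → ℂ) : ℍ → ℍ → ℂ :=
  Phi w (iterPrim f)

/-- The integer polynomial `(a X + b) ^ j * (c X + d) ^ (w - j)` for `A = !![a, b; c, d]`. -/
def actPoly (w : ℕ) (A : Matrix (Fin 2) (Fin 2) ℤ) (j : ℕ) : ℤ[X] :=
  (C (A 0 0) * X + C (A 0 1)) ^ j * (C (A 1 0) * X + C (A 1 1)) ^ (w - j)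

/-- The action of an integer matrix on complex polynomials of degree at most `w`:
`p ↦ (c X + d) ^ w * p ((a X + b) / (c X + d))`, written as
`∑ j ≤ w, p.coeff j • (a X + b) ^ j * (c X + d) ^ (w - j)`. -/
def polyAct (w : ℕ) (A : Matrix (Fin 2) (Fin 2) ℤ) : ℂ[X] →ₗ[ℂ] ℂ[X] :=
  ∑ j ∈ Finset.range (w + 1),
    (lcoeff ℂ j).smulRight ((actPoly w A j).map (Int.castRingHom ℂ))

open Classical in
/-- The polynomial representing a polynomial function on the upper half plane (junk value `0`
if the function is not polynomial). -/
def polyOf (φ : ℍ → ℂ) : ℂ[X] :=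
  if h : ∃ p : ℂ[X], ∀ x : ℍ, φ x = p.eval (x : ℂ) then h.choose else 0

/-- The period function of `f` at `g`: `bar w g (eich w f (g • z)) - eich w f z` at the base
point `z = I` (for `f` invariant under `g` this does not depend on `z`). -/
def perFun (w : ℕ) (f : ℍ → ℂ) (g : GL (Fin 2) ℝ) : ℍ → ℂ :=
  bar w g (eich w f (g • UpperHalfPlane.I)) - eich w f UpperHalfPlane.I

/-- The period polynomial of `f` at `γ`. -/
def per (w : ℕ) (f : ℍ → ℂ) (γ : SL(2, ℤ)) : ℂ[X] :=
  polyOf (perFun w f (Matrix.SpecialLinearGroup.mapGL ℝ γ))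

end Fermat.Agent.S22

end
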