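import Fermat.Agent.S22.Defs
import Fermat.Prelude.Thm_Subgroup_IsArithmetic_exists_nat_mem_strictPeriods_conj
import Fermat.Prelude.Thm_CongruenceSubgroup_one_mem_strictPeriods_Gamma0

set_option autoImplicit false

noncomputable section

open UpperHalfPlane Polynomial Filter Topology
open scoped MatrixGroups ModularForm Manifold

namespace Fermat.Agent.S22

theorem periodic_cuspForm {N : ℕ} {k : ℤ} (f : CuspForm (CongruenceSubgroup.Gamma0 N) k) :
    Function.Periodic (⇑f ∘ ofComplex) 1 := by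
  have h := SlashInvariantFormClass.periodic_comp_ofComplex f
    (CongruenceSubgroup.one_mem_strictPeriods_Gamma0 N)
  simpa using h

theorem nice_cuspForm {N : ℕ} {k : ℤ} (f : CuspForm (CongruenceSubgroup.Gamma0 N) k) :
    Nice ⇑f := by
  have : Fact (IsCusp OnePoint.infty
      (Subgroup.map (Matrix.SpecialLinearGroup.mapGL ℝ) (CongruenceSubgroup.Gamma0 N))) :=
    ⟨Subgroup.isCusp_of_mem_strictPeriods one_pos
      (CongruenceSubgroup.one_mem_strictPeriods_Gamma0 N)⟩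
  refine ⟨CuspFormClass.holo f, CuspFormClass.zero_at_infty f, 1, one_pos, ?_⟩
  simpa using periodic_cuspForm f

theorem nice_slash_upper {f : ℍ → ℂ} (hf : Nice f) (k : ℤ) {g : GL (Fin 2) ℝ}
    (hg : 0 < g.det.val) (hg10 : g 1 0 = 0) : Nice (f ∣[k] g) := by
  obtain ⟨h, hh, hper⟩ := hf.per
  have hdet : g 0 0 * g 1 1 > 0 := by
    have : g.det.val = g 0 0 * g 1 1 - g 0 1 * g 1 0 := by
      rw [Matrix.GeneralLinearGroup.val_det_apply, Matrix.det_fin_two]
    rw [this, hg10, mul_zero, sub_zero] at hg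
    exact hg
  have h00 : g 0 0 ≠ 0 := fun h0 => by rw [h0, zero_mul] at hdet; exact lt_irrefl _ hdet
  have h11 : g 1 1 ≠ 0 := fun h0 => by rw [h0, mul_zero] at hdet; exact lt_irrefl _ hdet
  have hquot : 0 < g 1 1 / g 0 0 := by
    have : g 1 1 / g 0 0 = (g 0 0 * g 1 1) / (g 0 0) ^ 2 := by
      field_simp
    rw [this]
    exact div_pos hdet (by positivity)
  refine ⟨hf.mdiff.slash k g, IsZeroAtImInfty.slash k hg10 hf.zero, h * (g 1 1 / g 0 0),
    mul_pos hh hquot, ?_⟩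
  intro w
  by_cases hw : 0 < w.im
  · have hw' : 0 < (w + ((h * (g 1 1 / g 0 0) : ℝ) : ℂ)).im := by simpa using hw
    rw [Function.comp_apply, Function.comp_apply, ofComplex_apply_of_im_pos hw',
      ofComplex_apply_of_im_pos hw, ModularForm.slash_apply, ModularForm.slash_apply]
    have hσ : σ g = ContinuousAlgEquiv.refl ℝ ℂ := by rw [σ, if_pos hg]
    have hden : ∀ τ : ℍ, denom g τ = (g 1 1 : ℂ) := by
      intro τ
      simp [denom, hg10]
    have hnum : ∀ τ : ℍ, ((g • τ : ℍ) : ℂ) = ((g 0 0 : ℂ) * τ + g 0 1) / (g 1 1 : ℂ) := by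
      intro τ
      rw [coe_smul_of_det_pos hg, hden]
      simp [num]
    rw [hden, hden, hσ]
    congr 2
    -- reduce to periodicity of `f ∘ ofComplex`
    have e1 : f (g • (⟨w + ((h * (g 1 1 / g 0 0) : ℝ) : ℂ), hw'⟩ : ℍ)) =
        (f ∘ ofComplex) (((g • (⟨w, hw⟩ : ℍ) : ℍ) : ℂ) + (h : ℂ)) := by
      have : (((g • (⟨w, hw⟩ : ℍ) : ℍ) : ℂ) + (h : ℂ)) =
          ((g • (⟨w + ((h * (g 1 1 / g 0 0) : ℝ) : ℂ), hw'⟩ : ℍ) : ℍ) : ℂ) := by
        rw [hnum, hnum]
        have h00' : (g 0 0 : ℂ) ≠ 0 := by exact_mod_cast h00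
        have h11' : (g 1 1 : ℂ) ≠ 0 := by exact_mod_cast h11
        push_cast
        field_simp
        ring
      rw [this, Function.comp_apply, ofComplex_apply]
    have e2 : f (g • (⟨w, hw⟩ : ℍ)) = (f ∘ ofComplex) ((g • (⟨w, hw⟩ : ℍ) : ℍ) : ℂ) := by
      rw [Function.comp_apply, ofComplex_apply]
    rw [e1, e2, hper]
  · have hw0 : w.im ≤ 0 := not_lt.mp hw
    have hw' : (w + ((h * (g 1 1 / g 0 0) : ℝ) : ℂ)).im ≤ 0 := by simpa using hw0
    rw [Function.comp_apply, Function.comp_apply, ofComplex_apply_of_im_nonpos hw',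
      ofComplex_apply_of_im_nonpos hw0]

theorem exists_period_slash_SL2Z {N : ℕ} [NeZero N] {k : ℤ}
    (f : CuspForm (CongruenceSubgroup.Gamma0 N) k) :
    ∃ M : ℕ, 0 < M ∧ ∀ σ : SL(2, ℤ),
      Function.Periodic ((⇑f ∣[k] (Matrix.SpecialLinearGroup.mapGL ℝ σ)) ∘ ofComplex) M := by
  obtain ⟨M, hM, h⟩ := Subgroup.IsArithmetic.exists_nat_mem_strictPeriods_conj
    (Subgroup.map (Matrix.SpecialLinearGroup.mapGL ℝ) (CongruenceSubgroup.Gamma0 N))
  refine ⟨M, hM, fun σ => ?_⟩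
  have h1 := h σ⁻¹
  rw [map_inv] at h1
  have h2 := SlashInvariantFormClass.periodic_comp_ofComplex
    (CuspForm.translate f (Matrix.SpecialLinearGroup.mapGL ℝ σ)) h1
  exact h2

theorem nice_slash_SL2Z {N : ℕ} [NeZero N] {k : ℤ}
    (f : CuspForm (CongruenceSubgroup.Gamma0 N) k) (σ : SL(2, ℤ)) :
    Nice (⇑f ∣[k] (Matrix.SpecialLinearGroup.mapGL ℝ σ)) := by
  obtain ⟨M, hM, h⟩ := exists_period_slash_SL2Z f
  refine ⟨(CuspFormClass.holo f).slash k _, ?_, M, by exact_mod_cast hM, ?_⟩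
  · have := CuspFormClass.zero_at_infty_slash f σ
    rwa [ModularForm.SL_slash] at this
  · exact h σ

end Fermat.Agent.S22

end
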