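/-
S22, piece P-DECAY: decay of `polynomial * F` along vertical rays for a `Nice` function `F`
(holomorphic, periodic, zero at the cusp at infinity).
-/
import Fermat.Agent.S22.Defs

set_option autoImplicit false

noncomputable section

open UpperHalfPlane Polynomial Filter Topology
open scoped MatrixGroups ModularForm Manifold

namespace Fermat.Agent.S22

namespace Decay

/-- The vertical ray `y ↦ u + y * I` tends to the cusp at infinity. -/
theorem tendsto_ofComplex_vertical (u : ℝ) :
    Tendsto (fun y : ℝ => ofComplex ((u : ℂ) + y * Complex.I)) atTop atImInfty := by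
  rw [atImInfty, tendsto_comap_iff]
  refine Tendsto.congr' ?_ tendsto_id
  filter_upwards [eventually_gt_atTop 0] with y hy
  have him : 0 < ((u : ℂ) + y * Complex.I).im := by simpa using hy
  simp [Function.comp, ofComplex_apply_of_im_pos him, UpperHalfPlane.im]

/-- On the vertical ray, `(ofComplex (u + y * I)).im = y` for `y > 0`. -/
theorem im_ofComplex_vertical (u : ℝ) {y : ℝ} (hy : 0 < y) :
    (ofComplex ((u : ℂ) + y * Complex.I)).im = y := by
  have him : 0 < ((u : ℂ) + y * Complex.I).im := by simpa using hy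
  simp [ofComplex_apply_of_im_pos him, UpperHalfPlane.im]

/-- Exponential decay of a `Nice` function along vertical rays. -/
theorem isBigO_vertical {F : ℍ → ℂ} (hF : Nice F) (u : ℝ) :
    ∃ b : ℝ, 0 < b ∧ (fun y : ℝ => F (ofComplex ((u : ℂ) + y * Complex.I))) =O[atTop]
      fun y : ℝ => Real.exp (-(b * y)) := by
  obtain ⟨h, hh, hper⟩ := hF.per
  have hO := hF.zero.exp_decay_atImInfty hh hper hF.mdiff hF.zero.isBoundedAtImInfty
  have hO' := hO.comp_tendsto (tendsto_ofComplex_vertical u)
  refine ⟨2 * Real.pi / h, by positivity, ?_⟩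
  refine hO'.congr' EventuallyEq.rfl ?_
  filter_upwards [eventually_gt_atTop 0] with y hy
  simp only [Function.comp, im_ofComplex_vertical u hy]
  congr 1
  ring

/-- Polynomial growth of `(x - (u + y * I)) ^ j` along vertical rays. -/
theorem isBigO_pow_vertical (j : ℕ) (x : ℂ) (u : ℝ) :
    (fun y : ℝ => (x - ((u : ℂ) + y * Complex.I)) ^ j) =O[atTop] fun y : ℝ => y ^ j := by
  have h1 : (fun y : ℝ => x - ((u : ℂ) + y * Complex.I)) =O[atTop] fun y : ℝ => y := by
    refine Asymptotics.IsBigO.of_bound 2 ?_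
    filter_upwards [eventually_ge_atTop ‖x - u‖, eventually_ge_atTop 0] with y hy hy0
    calc ‖x - ((u : ℂ) + y * Complex.I)‖ = ‖(x - u) - y * Complex.I‖ := by ring_nf
      _ ≤ ‖x - u‖ + ‖(y : ℂ) * Complex.I‖ := norm_sub_le _ _
      _ = ‖x - u‖ + y := by simp [abs_of_nonneg hy0]
      _ ≤ 2 * ‖y‖ := by rw [Real.norm_of_nonneg hy0]; linarith
  exact h1.pow j

end Decay

/-- decay of `polynomial * F` along vertical rays -/
theorem Nice.tendsto_vertical {F : ℍ → ℂ} (hF : Nice F) (j : ℕ) (x : ℂ) (u : ℝ) :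
    Tendsto (fun y : ℝ => (x - ((u : ℂ) + y * Complex.I)) ^ j *
      F (ofComplex ((u : ℂ) + y * Complex.I))) atTop (𝓝 0) := by
  obtain ⟨b, hb, h1⟩ := Decay.isBigO_vertical hF u
  have h2 := Decay.isBigO_pow_vertical j x u
  have h3 : (fun y : ℝ => y ^ j) =o[atTop] fun y : ℝ => Real.exp (b * y) :=
    isLittleO_pow_exp_pos_mul_atTop j hb
  have h4 := (h2.trans_isLittleO h3).mul_isBigO h1
  have h5 : (fun y : ℝ => (x - ((u : ℂ) + y * Complex.I)) ^ j *
      F (ofComplex ((u : ℂ) + y * Complex.I))) =o[atTop] fun _ : ℝ => (1 : ℝ) := by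
    refine h4.congr_right ?_
    intro y
    rw [← Real.exp_add]
    simp
  exact (Asymptotics.isLittleO_one_iff ℝ).mp h5

end Fermat.Agent.S22

end
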