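/-
S22, piece P-PRIM: decaying primitives on the upper half plane.

`IsPrim F f` says that `F` is a holomorphic primitive of `f` which tends to zero at the cusp at
infinity.  Such a primitive is unique, and it exists as soon as `f` is `Nice` (holomorphic,
periodic and zero at infinity): write `f = φ ∘ q` with `φ` holomorphic on the unit disc and
`φ 0 = 0`, take a primitive `Ψ` of `φ(q)/q` on the disc and put `F = h / (2πi) * (Ψ ∘ q - Ψ 0)`.
-/
import Fermat.Agent.S22.Defs

set_option autoImplicit false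

noncomputable section

open UpperHalfPlane Polynomial Filter Topology
open scoped MatrixGroups ModularForm Manifold

namespace Fermat.Agent.S22

namespace Prim

/-- The open upper half plane as a subset of `ℂ`. -/
def uhSet : Set ℂ := {z : ℂ | 0 < z.im}

theorem isOpen_uhSet : IsOpen uhSet :=
  isOpen_lt continuous_const Complex.continuous_im

theorem convex_uhSet : Convex ℝ uhSet := by
  intro x hx y hy a b ha hb hab
  change 0 < x.im at hx
  change 0 < y.im at hy
  change 0 < (a • x + b • y).im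
  have him : (a • x + b • y).im = a * x.im + b * y.im := by
    simp [Complex.add_im, Complex.real_smul]
  rw [him]
  rcases ha.eq_or_lt with rfl | ha'
  · have hb1 : b = 1 := by linarith
    subst hb1
    simpa using hy
  · have h1 : 0 < a * x.im := mul_pos ha' hx
    have h2 : 0 ≤ b * y.im := mul_nonneg hb hy.le
    linarith

theorem mdiff_of_hasDerivAt {F f : ℍ → ℂ}
    (h : ∀ z : ℍ, HasDerivAt (F ∘ ofComplex) (f z) (z : ℂ)) : MDiff F := by
  rw [UpperHalfPlane.mdifferentiable_iff]
  intro z hz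
  exact (h ⟨z, hz⟩).differentiableAt.differentiableWithinAt

/-- Two functions on the upper half plane with the same derivative differ by a constant. -/
theorem exists_const_of_hasDerivAt {F F' f : ℍ → ℂ}
    (h : ∀ z : ℍ, HasDerivAt (F ∘ ofComplex) (f z) (z : ℂ))
    (h' : ∀ z : ℍ, HasDerivAt (F' ∘ ofComplex) (f z) (z : ℂ)) :
    ∃ c : ℂ, ∀ z : ℍ, F z - F' z = c := by
  have hD : ∀ z ∈ uhSet, HasDerivAt ((F ∘ ofComplex) - (F' ∘ ofComplex)) 0 z := by
    intro z hz
    have := (h ⟨z, hz⟩).sub (h' ⟨z, hz⟩)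
    rwa [sub_self] at this
  have hdiff : DifferentiableOn ℂ ((F ∘ ofComplex) - (F' ∘ ofComplex)) uhSet :=
    fun z hz => (hD z hz).differentiableAt.differentiableWithinAt
  obtain ⟨a, ha⟩ := isOpen_uhSet.exists_is_const_of_fderiv_eq_zero
    convex_uhSet.isPreconnected hdiff (fun z hz => by
      have := (hD z hz).hasFDerivAt.fderiv
      rw [this]
      ext
      simp)
  refine ⟨a, fun z => ?_⟩
  have := ha (z : ℂ) z.im_pos
  simpa [ofComplex_apply] using this

theorem tendsto_of_isZero {F : ℍ → ℂ} (h : IsZeroAtImInfty F) : Tendsto F atImInfty (𝓝 0) := h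

end Prim

open Prim

theorem IsPrim.unique {F F' f : ℍ → ℂ} (h : IsPrim F f) (h' : IsPrim F' f) : F = F' := by
  obtain ⟨c, hc⟩ := exists_const_of_hasDerivAt h.deriv h'.deriv
  have h0 : Tendsto (fun z : ℍ => F z - F' z) atImInfty (𝓝 0) := by
    simpa using (tendsto_of_isZero h.zero).sub (tendsto_of_isZero h'.zero)
  have h1 : Tendsto (fun z : ℍ => F z - F' z) atImInfty (𝓝 c) := by
    simp only [hc]
    exact tendsto_const_nhds
  have hc0 : c = 0 := tendsto_nhds_unique h1 h0
  funext z
  have := hc z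
  rw [hc0, sub_eq_zero] at this
  exact this

namespace Prim

theorem isPrim_zero : IsPrim (0 : ℍ → ℂ) 0 where
  mdiff := mdiff_of_hasDerivAt (f := 0) fun z => by
    have : ((0 : ℍ → ℂ) ∘ ofComplex) = fun _ : ℂ => (0 : ℂ) := rfl
    rw [this]
    exact hasDerivAt_const _ _
  zero := by
    show Tendsto (0 : ℍ → ℂ) atImInfty (𝓝 0)
    exact tendsto_const_nhds
  deriv z := by
    have : ((0 : ℍ → ℂ) ∘ ofComplex) = fun _ : ℂ => (0 : ℂ) := rfl
    rw [this]
    exact hasDerivAt_const _ _

theorem IsPrim.add' {F G f g : ℍ → ℂ} (hF : IsPrim F f) (hG : IsPrim G g) :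
    IsPrim (F + G) (f + g) where
  mdiff := mdiff_of_hasDerivAt (f := f + g) fun z => (hF.deriv z).add (hG.deriv z)
  zero := by
    show Tendsto (fun x => F x + G x) atImInfty (𝓝 0)
    simpa using (tendsto_of_isZero hF.zero).add (tendsto_of_isZero hG.zero)
  deriv z := (hF.deriv z).add (hG.deriv z)

theorem IsPrim.smul' (c : ℂ) {F f : ℍ → ℂ} (hF : IsPrim F f) : IsPrim (c • F) (c • f) where
  mdiff := mdiff_of_hasDerivAt (f := c • f) fun z => (hF.deriv z).const_smul c
  zero := by
    show Tendsto (fun x => c • F x) atImInfty (𝓝 0)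
    simpa using (tendsto_of_isZero hF.zero).const_smul c
  deriv z := (hF.deriv z).const_smul c

theorem prim_eq {F f : ℍ → ℂ} (hF : IsPrim F f) : prim f = F := by
  have hex : ∃ F, IsPrim F f := ⟨F, hF⟩
  have h1 : IsPrim (prim f) f := by
    unfold prim
    rw [dif_pos hex]
    exact hex.choose_spec
  exact h1.unique hF

theorem isPrim_prim_of_exists {f : ℍ → ℂ} (hex : ∃ F, IsPrim F f) : IsPrim (prim f) f := by
  obtain ⟨F, hF⟩ := hex
  rw [prim_eq hF]
  exact hF

end Prim

theorem Nice.exists_isPrim {f : ℍ → ℂ} (hf : Nice f) : ∃ F, IsPrim F f := by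
  obtain ⟨h, hh, hper⟩ := hf.per
  have hbdd : IsBoundedAtImInfty f := Filter.ZeroAtFilter.boundedAtFilter hf.zero
  set φ : ℂ → ℂ := cuspFunction h f with hφdef
  have hφ : DifferentiableOn ℂ φ (Metric.ball 0 1) :=
    differentiableOn_cuspFunction_ball hh hper hf.mdiff hbdd
  have hφ0 : φ 0 = 0 := hf.zero.cuspFunction_apply_zero hh
  have hψ : DifferentiableOn ℂ (dslope φ 0) (Metric.ball 0 1) :=
    (Complex.differentiableOn_dslope (Metric.ball_mem_nhds 0 one_pos)).mpr hφ
  obtain ⟨Ψ, hΨ⟩ := hψ.isExactOn_ball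
  have hq1 : ∀ z : ℍ, Function.Periodic.qParam h (z : ℂ) ∈ Metric.ball (0 : ℂ) 1 := by
    intro z
    rw [mem_ball_zero_iff]
    exact Function.Periodic.norm_qParam_lt_one hh z.im_pos
  have hqd : ∀ z : ℂ, HasDerivAt (Function.Periodic.qParam h)
      (Function.Periodic.qParam h z * (2 * Real.pi * Complex.I / h)) z := by
    intro z
    have h1 : HasDerivAt (fun u : ℂ => 2 * Real.pi * Complex.I * u / h)
        (2 * Real.pi * Complex.I / h) z := by
      have := ((hasDerivAt_id z).const_mul (2 * (Real.pi : ℂ) * Complex.I)).div_const (h : ℂ)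
      simpa using this
    exact h1.cexp
  set c : ℂ := (h : ℂ) / (2 * Real.pi * Complex.I) with hcdef
  have hc : c * (2 * Real.pi * Complex.I / h) = 1 := by
    have h1 : (h : ℂ) ≠ 0 := by exact_mod_cast hh.ne'
    have h2 : (2 * (Real.pi : ℂ) * Complex.I) ≠ 0 := by
      simp [Real.pi_ne_zero]
    rw [hcdef]
    field_simp
  let G : ℍ → ℂ := fun z => c * (Ψ (Function.Periodic.qParam h (z : ℂ)) - Ψ 0)
  have hGd : ∀ z : ℍ, HasDerivAt (G ∘ ofComplex) (f z) (z : ℂ) := by
    intro z
    set q := Function.Periodic.qParam h (z : ℂ) with hq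
    have hqne : q ≠ 0 := Function.Periodic.qParam_ne_zero _
    have hΨq : HasDerivAt Ψ (dslope φ 0 q) q := hΨ q (hq1 z)
    have hcomp : HasDerivAt (fun u : ℂ => Ψ (Function.Periodic.qParam h u))
        (dslope φ 0 q * (q * (2 * Real.pi * Complex.I / h))) (z : ℂ) :=
      HasDerivAt.comp (z : ℂ) (by simpa [hq] using hΨq) (hqd (z : ℂ))
    have hmain : HasDerivAt (fun u : ℂ => c * (Ψ (Function.Periodic.qParam h u) - Ψ 0))
        (c * (dslope φ 0 q * (q * (2 * Real.pi * Complex.I / h)))) (z : ℂ) :=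
      (hcomp.sub_const (Ψ 0)).const_mul c
    have hval : c * (dslope φ 0 q * (q * (2 * Real.pi * Complex.I / h))) = f z := by
      have hds : dslope φ 0 q * q = φ q := by
        rw [dslope_of_ne _ hqne, slope_def_field, hφ0, sub_zero, sub_zero]
        field_simp
      have hfq : φ q = f z := eq_cuspFunction z hh.ne' hper
      calc c * (dslope φ 0 q * (q * (2 * Real.pi * Complex.I / h)))
          = (c * (2 * Real.pi * Complex.I / h)) * (dslope φ 0 q * q) := by ring
        _ = f z := by rw [hc, one_mul, hds, hfq]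
    rw [hval] at hmain
    refine hmain.congr_of_eventuallyEq ?_
    have hopen : uhSet ∈ 𝓝 (z : ℂ) := isOpen_uhSet.mem_nhds z.im_pos
    filter_upwards [hopen] with u hu
    simp only [Function.comp_apply, G]
    rw [ofComplex_apply_of_im_pos hu]
  refine ⟨G, ⟨mdiff_of_hasDerivAt hGd, ?_, hGd⟩⟩
  show Tendsto G atImInfty (𝓝 0)
  have hΨc : ContinuousAt Ψ 0 :=
    (hΨ 0 (Metric.mem_ball_self one_pos)).continuousAt
  have h1 : Tendsto (fun z : ℍ => Ψ (Function.Periodic.qParam h (z : ℂ))) atImInfty (𝓝 (Ψ 0)) :=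
    hΨc.tendsto.comp (qParam_tendsto_atImInfty hh)
  have h2 : Tendsto (fun z : ℍ => c * (Ψ (Function.Periodic.qParam h (z : ℂ)) - Ψ 0)) atImInfty
      (𝓝 (c * (Ψ 0 - Ψ 0))) := (h1.sub_const (Ψ 0)).const_mul c
  simpa using h2

theorem Nice.isPrim_prim {f : ℍ → ℂ} (hf : Nice f) : IsPrim (prim f) f :=
  isPrim_prim_of_exists hf.exists_isPrim

theorem Nice.prim_periodic {f : ℍ → ℂ} (hf : Nice f) {h : ℝ}
    (hper : Function.Periodic (f ∘ ofComplex) h) : Function.Periodic (prim f ∘ ofComplex) h := by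
  have hP := hf.isPrim_prim
  -- the translate of `prim f`
  let F' : ℍ → ℂ := fun z => (prim f ∘ ofComplex) ((z : ℂ) + h)
  have him : ∀ u : ℂ, (u + (h : ℂ)).im = u.im := fun u => by simp
  have hd : ∀ z : ℍ, HasDerivAt (F' ∘ ofComplex) (f z) (z : ℂ) := by
    intro z
    have hpos : 0 < ((z : ℂ) + (h : ℂ)).im := by rw [him]; exact z.im_pos
    have h1 : HasDerivAt (prim f ∘ ofComplex) (f ⟨(z : ℂ) + h, hpos⟩) ((z : ℂ) + h) :=
      hP.deriv ⟨(z : ℂ) + h, hpos⟩
    have hfz : f ⟨(z : ℂ) + h, hpos⟩ = f z := by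
      have := hper (z : ℂ)
      simp only [Function.comp_apply] at this
      rw [ofComplex_apply_of_im_pos hpos, ofComplex_apply] at this
      exact this
    rw [hfz] at h1
    have h2 : HasDerivAt (fun u : ℂ => (prim f ∘ ofComplex) (u + h)) (f z) (z : ℂ) := by
      have := HasDerivAt.comp_add_const (z : ℂ) (h : ℂ) h1
      simpa using this
    refine h2.congr_of_eventuallyEq ?_
    have hopen : uhSet ∈ 𝓝 (z : ℂ) := isOpen_uhSet.mem_nhds z.im_pos
    filter_upwards [hopen] with u hu
    simp only [Function.comp_apply, F']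
    rw [ofComplex_apply_of_im_pos hu]
  have hz : IsZeroAtImInfty F' := by
    show Tendsto F' atImInfty (𝓝 0)
    have ht : Tendsto (fun z : ℍ => ofComplex ((z : ℂ) + h)) atImInfty atImInfty := by
      rw [atImInfty, tendsto_comap_iff]
      have : (UpperHalfPlane.im ∘ fun z : ℍ => ofComplex ((z : ℂ) + h)) = UpperHalfPlane.im := by
        funext z
        have hpos : 0 < ((z : ℂ) + (h : ℂ)).im := by rw [him]; exact z.im_pos
        simp only [Function.comp_apply]
        rw [ofComplex_apply_of_im_pos hpos]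
        show ((z : ℂ) + (h : ℂ)).im = _
        rw [him]
        rfl
      rw [this]
      exact tendsto_comap
    exact (tendsto_of_isZero hP.zero).comp ht
  have hF' : IsPrim F' f := ⟨mdiff_of_hasDerivAt hd, hz, hd⟩
  have heq : F' = prim f := hF'.unique hP
  intro w
  by_cases hw : 0 < w.im
  · have h1 := congrFun heq ⟨w, hw⟩
    simp only [F'] at h1
    show (prim f ∘ ofComplex) (w + h) = (prim f ∘ ofComplex) w
    rw [show (prim f ∘ ofComplex) w = prim f ⟨w, hw⟩ by
      simp only [Function.comp_apply]; rw [ofComplex_apply_of_im_pos hw]]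
    exact h1
  · have hw' : w.im ≤ 0 := not_lt.mp hw
    have hw'' : (w + (h : ℂ)).im ≤ 0 := by rw [him]; exact hw'
    simp only [Function.comp_apply]
    rw [ofComplex_apply_of_im_nonpos hw'', ofComplex_apply_of_im_nonpos hw']

theorem Nice.prim_nice {f : ℍ → ℂ} (hf : Nice f) : Nice (prim f) := by
  have hP := hf.isPrim_prim
  obtain ⟨h, hh, hper⟩ := hf.per
  exact ⟨hP.mdiff, hP.zero, ⟨h, hh, hf.prim_periodic hper⟩⟩

theorem Nice.iterPrim_nice {f : ℍ → ℂ} (hf : Nice f) (r : ℕ) : Nice (iterPrim f r) := by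
  induction r with
  | zero => exact hf
  | succ r ih => exact ih.prim_nice

theorem Nice.isPrim_iterPrim {f : ℍ → ℂ} (hf : Nice f) (r : ℕ) :
    IsPrim (iterPrim f (r + 1)) (iterPrim f r) :=
  (hf.iterPrim_nice r).isPrim_prim

theorem Nice.iterPrim_periodic {f : ℍ → ℂ} (hf : Nice f) {h : ℝ}
    (hper : Function.Periodic (f ∘ ofComplex) h) (r : ℕ) :
    Function.Periodic (iterPrim f r ∘ ofComplex) h := by
  induction r with
  | zero => exact hper
  | succ r ih => exact (hf.iterPrim_nice r).prim_periodic ih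

namespace Prim

/-- `f` has iterated decaying primitives of all orders. -/
def Tower (f : ℍ → ℂ) : Prop := ∀ r : ℕ, IsPrim (iterPrim f (r + 1)) (iterPrim f r)

theorem Nice.tower {f : ℍ → ℂ} (hf : Nice f) : Tower f := fun r => hf.isPrim_iterPrim r

theorem iterPrim_zero_fun (r : ℕ) : iterPrim (0 : ℍ → ℂ) r = 0 := by
  induction r with
  | zero => rfl
  | succ r ih =>
    show prim (iterPrim 0 r) = 0
    rw [ih]
    exact prim_eq isPrim_zero

theorem tower_zero : Tower (0 : ℍ → ℂ) := by
  intro r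
  rw [iterPrim_zero_fun, iterPrim_zero_fun]
  exact isPrim_zero

theorem iterPrim_add_of_tower {f g : ℍ → ℂ} (hf : Tower f) (hg : Tower g) (r : ℕ) :
    iterPrim (f + g) r = iterPrim f r + iterPrim g r := by
  induction r with
  | zero => rfl
  | succ r ih =>
    show prim (iterPrim (f + g) r) = _
    rw [ih]
    exact prim_eq (IsPrim.add' (hf r) (hg r))

theorem tower_add {f g : ℍ → ℂ} (hf : Tower f) (hg : Tower g) : Tower (f + g) := by
  intro r
  rw [iterPrim_add_of_tower hf hg, iterPrim_add_of_tower hf hg]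
  exact IsPrim.add' (hf r) (hg r)

theorem iterPrim_smul_of_tower (c : ℂ) {f : ℍ → ℂ} (hf : Tower f) (r : ℕ) :
    iterPrim (c • f) r = c • iterPrim f r := by
  induction r with
  | zero => rfl
  | succ r ih =>
    show prim (iterPrim (c • f) r) = _
    rw [ih]
    exact prim_eq (IsPrim.smul' c (hf r))

theorem tower_smul (c : ℂ) {f : ℍ → ℂ} (hf : Tower f) : Tower (c • f) := by
  intro r
  rw [iterPrim_smul_of_tower c hf, iterPrim_smul_of_tower c hf]
  exact IsPrim.smul' c (hf r)

theorem tower_sum {ι : Type*} (s : Finset ι) (f : ι → ℍ → ℂ) (hf : ∀ i ∈ s, Tower (f i)) :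
    Tower (∑ i ∈ s, f i) ∧ ∀ r : ℕ, iterPrim (∑ i ∈ s, f i) r = ∑ i ∈ s, iterPrim (f i) r := by
  classical
  induction s using Finset.induction_on with
  | empty =>
    refine ⟨by simpa using tower_zero, fun r => ?_⟩
    simp only [Finset.sum_empty]
    exact iterPrim_zero_fun r
  | insert a s ha ih =>
    have hfa : Tower (f a) := hf a (Finset.mem_insert_self a s)
    obtain ⟨hs, hsum⟩ := ih (fun i hi => hf i (Finset.mem_insert_of_mem hi))
    refine ⟨by rw [Finset.sum_insert ha]; exact tower_add hfa hs, fun r => ?_⟩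
    rw [Finset.sum_insert ha, Finset.sum_insert ha, iterPrim_add_of_tower hfa hs, hsum]

end Prim

theorem iterPrim_add {f g : ℍ → ℂ} (hf : Nice f) (hg : Nice g) (r : ℕ) :
    iterPrim (f + g) r = iterPrim f r + iterPrim g r :=
  iterPrim_add_of_tower (Nice.tower hf) (Nice.tower hg) r

theorem iterPrim_smul (c : ℂ) {f : ℍ → ℂ} (hf : Nice f) (r : ℕ) :
    iterPrim (c • f) r = c • iterPrim f r :=
  iterPrim_smul_of_tower c (Nice.tower hf) r

theorem iterPrim_sum {ι : Type*} (s : Finset ι) (f : ι → ℍ → ℂ) (hf : ∀ i ∈ s, Nice (f i))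
    (r : ℕ) : iterPrim (∑ i ∈ s, f i) r = ∑ i ∈ s, iterPrim (f i) r :=
  (tower_sum s f (fun i hi => Nice.tower (hf i hi))).2 r

end Fermat.Agent.S22

end
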