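/-
S22, piece P-PHI: the Eichler kernel `Phi` and the Eichler integral `eich`:
derivative in the base point, value on the diagonal, polynomiality in the second variable,
linearity and decay along vertical rays.
-/
import Fermat.Agent.S22.Defs
import Fermat.Agent.S22.Prim
import Fermat.Agent.S22.Decay

set_option autoImplicit false

noncomputable section

open UpperHalfPlane Polynomial Filter Topology
open scoped MatrixGroups ModularForm Manifold

namespace Fermat.Agent.S22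

/-- Near a point of the upper half plane, `ofComplex` followed by the coercion is the identity. -/
theorem Phi.eventually_coe_ofComplex (z : ℍ) :
    ∀ᶠ ζ : ℂ in 𝓝 (z : ℂ), ((ofComplex ζ : ℍ) : ℂ) = ζ := by
  have hopen : IsOpen {ζ : ℂ | 0 < ζ.im} := isOpen_lt continuous_const Complex.continuous_im
  filter_upwards [hopen.mem_nhds z.im_pos] with ζ hζ
  rw [ofComplex_apply_of_im_pos hζ]

theorem Phi.hasDerivAt_coe_ofComplex (z : ℍ) :
    HasDerivAt (fun ζ : ℂ => ((ofComplex ζ : ℍ) : ℂ)) 1 (z : ℂ) :=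
  (hasDerivAt_id (z : ℂ)).congr_of_eventuallyEq (Phi.eventually_coe_ofComplex z)

theorem hasDerivAt_Phi (w : ℕ) (G : ℕ → ℍ → ℂ) (hG : ∀ r, IsPrim (G (r + 1)) (G r)) (z x : ℍ) :
    HasDerivAt (fun ζ : ℂ => Phi w G (ofComplex ζ) x) (G 0 z * ((x : ℂ) - (z : ℂ)) ^ w)
      (z : ℂ) := by
  induction w generalizing G with
  | zero =>
    have h := (hG 0).deriv z
    simpa [Phi, Function.comp_def] using h
  | succ w ih =>
    have h1 : HasDerivAt (fun ζ : ℂ => G 1 (ofComplex ζ)) (G 0 z) (z : ℂ) := (hG 0).deriv z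
    have h2 : HasDerivAt (fun ζ : ℂ => ((x : ℂ) - ((ofComplex ζ : ℍ) : ℂ)) ^ (w + 1))
        (((w + 1 : ℕ) : ℂ) * ((x : ℂ) - ((ofComplex (z : ℂ) : ℍ) : ℂ)) ^ w * (0 - 1)) (z : ℂ) :=
      (((hasDerivAt_const (z : ℂ) (x : ℂ)).sub (Phi.hasDerivAt_coe_ofComplex z)).pow (w + 1))
    have h3 := ih (fun r => G (r + 1)) (fun r => hG (r + 1))
    have h4 := (h2.mul h1).add (h3.const_mul ((w : ℂ) + 1))
    have hz : ((ofComplex (z : ℂ) : ℍ) : ℂ) = (z : ℂ) := by rw [ofComplex_apply]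
    rw [hz] at h4
    have hval : ((w + 1 : ℕ) : ℂ) * ((x : ℂ) - (z : ℂ)) ^ w * (0 - 1) * G 1 (ofComplex (z : ℂ)) +
        ((x : ℂ) - (z : ℂ)) ^ (w + 1) * G 0 z + ((w : ℂ) + 1) * (G (0 + 1) z * ((x : ℂ) - (z : ℂ)) ^ w)
        = G 0 z * ((x : ℂ) - (z : ℂ)) ^ (w + 1) := by
      rw [ofComplex_apply]
      push_cast
      ring
    rw [← hval]
    exact h4

theorem Phi_diag (w : ℕ) (G : ℕ → ℍ → ℂ) (z : ℍ) :
    Phi w G z z = (w.factorial : ℂ) * G (w + 1) z := by
  induction w generalizing G with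
  | zero => simp [Phi]
  | succ w ih =>
    rw [Phi, ih, sub_self, zero_pow (Nat.succ_ne_zero w), zero_mul, zero_add,
      Nat.factorial_succ]
    push_cast
    ring

theorem Phi_poly (w : ℕ) (G : ℕ → ℍ → ℂ) (z : ℍ) :
    ∃ p : ℂ[X], p.natDegree ≤ w ∧ ∀ x : ℍ, Phi w G z x = p.eval (x : ℂ) := by
  induction w generalizing G with
  | zero =>
    exact ⟨C (G 1 z), by simp, fun x => by simp [Phi]⟩
  | succ w ih =>
    obtain ⟨p, hp, hpe⟩ := ih (fun r => G (r + 1))
    refine ⟨(X - C (z : ℂ)) ^ (w + 1) * C (G 1 z) + C ((w : ℂ) + 1) * p, ?_, fun x => ?_⟩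
    · refine (natDegree_add_le _ _).trans (max_le ?_ ?_)
      · refine (natDegree_mul_C_le _ _).trans ?_
        refine (natDegree_pow_le).trans ?_
        rw [natDegree_X_sub_C, mul_one]
      · exact (natDegree_C_mul_le _ _).trans (hp.trans (Nat.le_succ w))
    · rw [Phi, hpe x]
      simp

theorem Phi.kernel_zero (w : ℕ) (z x : ℍ) : Phi w (0 : ℕ → ℍ → ℂ) z x = 0 := by
  induction w with
  | zero => simp [Phi]
  | succ w ih =>
    have h0 : (fun r => (0 : ℕ → ℍ → ℂ) (r + 1)) = (0 : ℕ → ℍ → ℂ) := rfl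
    rw [Phi, h0, ih]
    simp

theorem Phi_add (w : ℕ) (G G' : ℕ → ℍ → ℂ) (z x : ℍ) :
    Phi w (G + G') z x = Phi w G z x + Phi w G' z x := by
  induction w generalizing G G' with
  | zero => simp [Phi]
  | succ w ih =>
    have h0 : (fun r => (G + G') (r + 1)) = (fun r => G (r + 1)) + (fun r => G' (r + 1)) := rfl
    rw [Phi, Phi, Phi, h0, ih]
    simp only [Pi.add_apply]
    ring

theorem Phi_smul (w : ℕ) (c : ℂ) (G : ℕ → ℍ → ℂ) (z x : ℍ) :
    Phi w (c • G) z x = c * Phi w G z x := by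
  induction w generalizing G with
  | zero => simp [Phi]
  | succ w ih =>
    have h0 : (fun r => (c • G) (r + 1)) = c • (fun r => G (r + 1)) := rfl
    rw [Phi, Phi, h0, ih]
    simp only [Pi.smul_apply, smul_eq_mul]
    ring

theorem Phi.kernel_sum (w : ℕ) {ι : Type*} (s : Finset ι) (G : ι → ℕ → ℍ → ℂ) (z x : ℍ) :
    Phi w (∑ i ∈ s, G i) z x = ∑ i ∈ s, Phi w (G i) z x := by
  classical
  induction s using Finset.induction_on with
  | empty => simp [Phi.kernel_zero]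
  | insert a s ha ih => rw [Finset.sum_insert ha, Finset.sum_insert ha, Phi_add, ih]

theorem tendsto_Phi_vertical (w : ℕ) (G : ℕ → ℍ → ℂ) (hG : ∀ r, Nice (G r)) (x : ℍ) (u : ℝ) :
    Tendsto (fun y : ℝ => Phi w G (ofComplex ((u : ℂ) + y * Complex.I)) x) atTop (𝓝 0) := by
  induction w generalizing G with
  | zero =>
    have h := (hG 1).tendsto_vertical 0 (x : ℂ) u
    simpa [Phi] using h
  | succ w ih =>
    have h1 := (hG 1).tendsto_vertical (w + 1) (x : ℂ) u
    have h2 := (ih (fun r => G (r + 1)) (fun r => hG (r + 1))).const_mul ((w : ℂ) + 1)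
    have h3 := h1.add h2
    rw [mul_zero, add_zero] at h3
    refine h3.congr' ?_
    filter_upwards [eventually_gt_atTop (0 : ℝ)] with y hy
    have him : 0 < ((u : ℂ) + y * Complex.I).im := by simpa using hy
    rw [Phi, ofComplex_apply_of_im_pos him]

theorem hasDerivAt_eich (w : ℕ) {f : ℍ → ℂ} (hf : Nice f) (z x : ℍ) :
    HasDerivAt (fun ζ : ℂ => eich w f (ofComplex ζ) x) (f z * ((x : ℂ) - (z : ℂ)) ^ w)
      (z : ℂ) :=
  hasDerivAt_Phi w (iterPrim f) (fun r => hf.isPrim_iterPrim r) z x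

theorem eich_diag (w : ℕ) (f : ℍ → ℂ) (z : ℍ) :
    eich w f z z = (w.factorial : ℂ) * iterPrim f (w + 1) z :=
  Phi_diag w (iterPrim f) z

theorem eich_poly (w : ℕ) (f : ℍ → ℂ) (z : ℍ) :
    ∃ p : ℂ[X], p.natDegree ≤ w ∧ ∀ x : ℍ, eich w f z x = p.eval (x : ℂ) :=
  Phi_poly w (iterPrim f) z

theorem eich_add (w : ℕ) {f g : ℍ → ℂ} (hf : Nice f) (hg : Nice g) (z x : ℍ) :
    eich w (f + g) z x = eich w f z x + eich w g z x := by
  have h : iterPrim (f + g) = iterPrim f + iterPrim g := funext fun r => iterPrim_add hf hg r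
  rw [eich, h, Phi_add]
  rfl

theorem eich_smul (w : ℕ) (c : ℂ) {f : ℍ → ℂ} (hf : Nice f) (z x : ℍ) :
    eich w (c • f) z x = c * eich w f z x := by
  have h : iterPrim (c • f) = c • iterPrim f := funext fun r => iterPrim_smul c hf r
  rw [eich, h, Phi_smul]
  rfl

theorem eich_sum (w : ℕ) {ι : Type*} (s : Finset ι) (f : ι → ℍ → ℂ) (hf : ∀ i ∈ s, Nice (f i))
    (z x : ℍ) : eich w (∑ i ∈ s, f i) z x = ∑ i ∈ s, eich w (f i) z x := by
  have h : iterPrim (∑ i ∈ s, f i) = ∑ i ∈ s, iterPrim (f i) := by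
    funext r
    rw [iterPrim_sum s f hf r, Finset.sum_apply]
  rw [eich, h, Phi.kernel_sum]
  rfl

theorem tendsto_eich_vertical (w : ℕ) {f : ℍ → ℂ} (hf : Nice f) (x : ℍ) (u : ℝ) :
    Tendsto (fun y : ℝ => eich w f (ofComplex ((u : ℂ) + y * Complex.I)) x) atTop (𝓝 0) :=
  tendsto_Phi_vertical w (iterPrim f) (fun r => hf.iterPrim_nice r) x u

end Fermat.Agent.S22

end
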