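/-
S22, piece P-POLY: pure algebra around `actPoly`, `polyAct`, `polyOf`.
-/
import Fermat.Agent.S22.Defs

set_option autoImplicit false

noncomputable section

open UpperHalfPlane Polynomial Filter Topology
open scoped MatrixGroups ModularForm Manifold

namespace Fermat.Agent.S22

namespace Poly

theorem polyAct_apply (w : ℕ) (A : Matrix (Fin 2) (Fin 2) ℤ) (p : ℂ[X]) :
    polyAct w A p =
      ∑ j ∈ Finset.range (w + 1), p.coeff j • (actPoly w A j).map (Int.castRingHom ℂ) := by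
  simp [polyAct, LinearMap.sum_apply, LinearMap.smulRight_apply, lcoeff_apply]

theorem natDegree_linear_pow_le (a b : ℤ) (j : ℕ) :
    ((C a * X + C b : ℤ[X]) ^ j).natDegree ≤ j := by
  refine (natDegree_pow_le).trans ?_
  have h1 : (C a * X + C b : ℤ[X]).natDegree ≤ 1 := natDegree_linear_le
  calc j * (C a * X + C b : ℤ[X]).natDegree ≤ j * 1 := Nat.mul_le_mul_left j h1
    _ = j := mul_one j

theorem natDegree_actPoly_le (w : ℕ) (A : Matrix (Fin 2) (Fin 2) ℤ) {j : ℕ} (hj : j ≤ w) :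
    (actPoly w A j).natDegree ≤ w := by
  unfold actPoly
  refine natDegree_mul_le.trans ?_
  have h1 := natDegree_linear_pow_le (A 0 0) (A 0 1) j
  have h2 := natDegree_linear_pow_le (A 1 0) (A 1 1) (w - j)
  omega

theorem actPoly_one (w j : ℕ) : actPoly w (1 : Matrix (Fin 2) (Fin 2) ℤ) j = X ^ j := by
  simp [actPoly]

/-- the points `n + i` of the upper half plane -/
def pt (n : ℕ) : ℍ := ⟨(n : ℂ) + Complex.I, by simp⟩

theorem coe_pt (n : ℕ) : ((pt n : ℍ) : ℂ) = (n : ℂ) + Complex.I := rfl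

theorem pt_injective : Function.Injective (fun n : ℕ => ((pt n : ℍ) : ℂ)) := by
  intro m n h
  simp only [coe_pt] at h
  have h' : (m : ℂ) = (n : ℂ) := add_right_cancel h
  exact_mod_cast h'

end Poly

open Fermat.Agent.S22.Poly

theorem coeff_polyAct (w : ℕ) (A : Matrix (Fin 2) (Fin 2) ℤ) (p : ℂ[X]) (i : ℕ) :
    (polyAct w A p).coeff i =
      ∑ j ∈ Finset.range (w + 1), (((actPoly w A j).coeff i : ℤ) : ℂ) * p.coeff j := by
  rw [polyAct_apply, finsetSum_coeff]
  refine Finset.sum_congr rfl fun j _ => ?_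
  rw [coeff_smul, coeff_map, smul_eq_mul, mul_comm]
  simp

theorem natDegree_polyAct_le (w : ℕ) (A : Matrix (Fin 2) (Fin 2) ℤ) (p : ℂ[X]) :
    (polyAct w A p).natDegree ≤ w := by
  rw [polyAct_apply]
  refine natDegree_sum_le_of_forall_le _ _ fun j hj => ?_
  refine (natDegree_smul_le _ _).trans ?_
  refine natDegree_map_le.trans ?_
  exact natDegree_actPoly_le w A (Nat.lt_succ_iff.mp (Finset.mem_range.mp hj))

theorem polyAct_one (w : ℕ) {p : ℂ[X]} (hp : p.natDegree ≤ w) : polyAct w 1 p = p := by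
  rw [polyAct_apply]
  conv_rhs => rw [p.as_sum_range' (w + 1) (Nat.lt_succ_of_le hp)]
  refine Finset.sum_congr rfl fun j _ => ?_
  rw [actPoly_one, Polynomial.map_pow, map_X, smul_eq_C_mul, C_mul_X_pow_eq_monomial]

theorem bar_eval (w : ℕ) (g : GL (Fin 2) ℝ) (A : Matrix (Fin 2) (Fin 2) ℤ)
    (hA : ∀ i j, (g i j : ℝ) = (A i j : ℝ)) (hg : 0 < g.det.val) {p : ℂ[X]}
    (hp : p.natDegree ≤ w) (x : ℍ) :
    bar w g (fun y : ℍ => p.eval (y : ℂ)) x = (polyAct w A p).eval (x : ℂ) := by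
  have hden : denom g x ≠ 0 := denom_ne_zero g x
  have hsm : ((g • x : ℍ) : ℂ) = num g x / denom g x := coe_smul_of_det_pos hg x
  have hnum : num g x = (A 0 0 : ℂ) * x + (A 0 1 : ℂ) := by
    simp only [num, hA]; push_cast; ring
  have hdenom : denom g x = (A 1 0 : ℂ) * x + (A 1 1 : ℂ) := by
    simp only [denom, hA]; push_cast; ring
  rw [bar, polyAct_apply, eval_finsetSum, hsm,
    eval_eq_sum_range' (Nat.lt_succ_of_le hp), Finset.mul_sum]
  refine Finset.sum_congr rfl fun j hj => ?_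
  have hjw : j ≤ w := Nat.lt_succ_iff.mp (Finset.mem_range.mp hj)
  rw [eval_smul, smul_eq_mul, eval_map, actPoly]
  simp only [eval₂_mul, eval₂_pow, eval₂_add, eval₂_C, eval₂_X]
  simp only [eq_intCast]
  rw [← hnum, ← hdenom, div_pow]
  have hsplit : denom g x ^ w = denom g x ^ j * denom g x ^ (w - j) := by
    rw [← pow_add, Nat.add_sub_cancel' hjw]
  rw [hsplit]
  field_simp

theorem eval_injective {p q : ℂ[X]} (h : ∀ x : ℍ, p.eval (x : ℂ) = q.eval (x : ℂ)) : p = q := by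
  refine Polynomial.eq_of_infinite_eval_eq p q ?_
  refine Set.infinite_of_injective_forall_mem pt_injective fun n => ?_
  exact h (pt n)

theorem polyOf_eval (p : ℂ[X]) : polyOf (fun x : ℍ => p.eval (x : ℂ)) = p := by
  have hex : ∃ q : ℂ[X], ∀ x : ℍ, (fun x : ℍ => p.eval (x : ℂ)) x = q.eval (x : ℂ) :=
    ⟨p, fun _ => rfl⟩
  rw [polyOf, dif_pos hex]
  exact (eval_injective hex.choose_spec).symm

theorem polyOf_eq {φ : ℍ → ℂ} {p : ℂ[X]} (h : ∀ x : ℍ, φ x = p.eval (x : ℂ)) : polyOf φ = p := by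
  have : φ = fun x : ℍ => p.eval (x : ℂ) := funext h
  rw [this, polyOf_eval]

theorem const_of_periodic_poly {p : ℂ[X]} {h : ℝ} (hh : h ≠ 0)
    (hper : ∀ x : ℍ, p.eval ((x : ℂ) + h) = p.eval (x : ℂ)) : ∃ c : ℂ, p = C c := by
  refine ⟨p.eval Complex.I, ?_⟩
  have key : ∀ n : ℕ, p.eval (Complex.I + (n : ℂ) * (h : ℂ)) = p.eval Complex.I := by
    intro n
    induction n with
    | zero => simp
    | succ n ih =>
      have him : 0 < (Complex.I + (n : ℂ) * (h : ℂ)).im := by simp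
      have := hper ⟨Complex.I + (n : ℂ) * (h : ℂ), him⟩
      rw [← ih, ← this]
      congr 1
      push_cast
      ring
  refine Polynomial.eq_of_infinite_eval_eq p (C (p.eval Complex.I)) ?_
  have hinj : Function.Injective (fun n : ℕ => Complex.I + (n : ℂ) * (h : ℂ)) := by
    intro m n hmn
    have h1 : (m : ℂ) * (h : ℂ) = (n : ℂ) * (h : ℂ) := add_left_cancel hmn
    have h2 : (h : ℂ) ≠ 0 := by exact_mod_cast hh
    have h3 : (m : ℂ) = (n : ℂ) := mul_right_cancel₀ h2 h1
    exact_mod_cast h3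
  refine Set.infinite_of_injective_forall_mem hinj fun n => ?_
  show p.eval (Complex.I + (n : ℂ) * (h : ℂ)) = (C (p.eval Complex.I)).eval _
  rw [eval_C]
  exact key n

end Fermat.Agent.S22

end
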