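/-
S22, piece P-TRANS: behaviour of the Eichler integral under Moebius transformations.
-/
import Fermat.Agent.S22.Phi

set_option autoImplicit false

noncomputable section

open UpperHalfPlane Polynomial Filter Topology
open scoped MatrixGroups ModularForm Manifold

namespace Fermat.Agent.S22

namespace Transform

/-- a function on `ℂ` with zero derivative at every point of the upper half plane is constant
there -/
theorem const_of_hasDerivAt_zero {ψ : ℂ → ℂ} (h : ∀ z : ℍ, HasDerivAt ψ 0 (z : ℂ)) (z z' : ℍ) :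
    ψ z = ψ z' := by
  have hopen : IsOpen {ζ : ℂ | 0 < ζ.im} := isOpen_upperHalfPlaneSet
  have hconn : IsPreconnected {ζ : ℂ | 0 < ζ.im} := (convex_halfSpace_im_gt 0).isPreconnected
  have hd : DifferentiableOn ℂ ψ {ζ : ℂ | 0 < ζ.im} := fun ζ hζ =>
    (h ⟨ζ, hζ⟩).differentiableAt.differentiableWithinAt
  have hd' : Set.EqOn (deriv ψ) 0 {ζ : ℂ | 0 < ζ.im} := fun ζ hζ => (h ⟨ζ, hζ⟩).deriv
  exact hopen.is_const_of_deriv_eq_zero hconn hd hd' z.im_pos z'.im_pos

theorem hasDerivAt_moebius (g : GL (Fin 2) ℝ) (z : ℍ) :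
    HasDerivAt (fun ζ : ℂ => num g ζ / denom g ζ)
      ((g.det.val : ℂ) / (denom g z) ^ 2) (z : ℂ) := by
  have hn : HasDerivAt (fun ζ : ℂ => num g ζ) ((g 0 0 : ℝ) : ℂ) (z : ℂ) := by
    simpa [num] using ((hasDerivAt_id (z : ℂ)).const_mul ((g 0 0 : ℝ) : ℂ)).add_const
      ((g 0 1 : ℝ) : ℂ)
  have hd : HasDerivAt (fun ζ : ℂ => denom g ζ) ((g 1 0 : ℝ) : ℂ) (z : ℂ) := by
    simpa [denom] using ((hasDerivAt_id (z : ℂ)).const_mul ((g 1 0 : ℝ) : ℂ)).add_const
      ((g 1 1 : ℝ) : ℂ)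
  have h := hn.div hd (denom_ne_zero g z)
  have hdet : (g.det.val : ℝ) = g 0 0 * g 1 1 - g 0 1 * g 1 0 := by
    rw [Matrix.GeneralLinearGroup.val_det_apply, Matrix.det_fin_two]
  refine h.congr_deriv ?_
  rw [hdet]
  simp only [num, denom]
  push_cast
  ring

theorem coe_smul_ofComplex_eventuallyEq {g : GL (Fin 2) ℝ} (hg : 0 < g.det.val) (z : ℍ) :
    (fun ζ : ℂ => ((g • ofComplex ζ : ℍ) : ℂ)) =ᶠ[𝓝 (z : ℂ)] fun ζ => num g ζ / denom g ζ := by
  filter_upwards [isOpen_upperHalfPlaneSet.mem_nhds z.im_pos] with ζ hζ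
  rw [coe_smul_of_det_pos hg, ofComplex_apply_of_im_pos hζ]

theorem σ_eq_refl {g : GL (Fin 2) ℝ} (hg : 0 < g.det.val) : σ g = ContinuousAlgEquiv.refl ℝ ℂ := by
  rw [σ, if_pos hg]

theorem moebius_sub {g : GL (Fin 2) ℝ} (hg : 0 < g.det.val) (x z : ℍ) :
    ((g • x : ℍ) : ℂ) - ((g • z : ℍ) : ℂ) =
      (g.det.val : ℂ) * ((x : ℂ) - z) / (denom g x * denom g z) := by
  have hx := denom_ne_zero g x
  have hz := denom_ne_zero g z
  have hdet : (g.det.val : ℝ) = g 0 0 * g 1 1 - g 0 1 * g 1 0 := by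
    rw [Matrix.GeneralLinearGroup.val_det_apply, Matrix.det_fin_two]
  rw [coe_smul_of_det_pos hg, coe_smul_of_det_pos hg, hdet]
  field_simp
  simp only [num, denom]
  push_cast
  ring

/-- the `z`-derivative of `bar w g (eich w f (g • z)) x` -/
theorem hasDerivAt_bar_eich (w : ℕ) {g : GL (Fin 2) ℝ} (hg : 0 < g.det.val) {f : ℍ → ℂ}
    (hf : Nice f) (z x : ℍ) :
    HasDerivAt (fun ζ : ℂ => bar w g (eich w f (g • ofComplex ζ)) x)
      ((f ∣[(w : ℤ) + 2] g) z * ((x : ℂ) - (z : ℂ)) ^ w) (z : ℂ) := by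
  have hE := hasDerivAt_eich w hf (g • z) (g • x)
  have hm := hasDerivAt_moebius g z
  have hmz : num g z / denom g z = ((g • z : ℍ) : ℂ) := (coe_smul_of_det_pos hg z).symm
  rw [← hmz] at hE
  have hcomp := HasDerivAt.comp (z : ℂ) hE hm
  have hev : (fun ζ : ℂ => eich w f (g • ofComplex ζ) (g • x)) =ᶠ[𝓝 (z : ℂ)]
      ((fun ζ : ℂ => eich w f (ofComplex ζ) (g • x)) ∘ fun ζ : ℂ => num g ζ / denom g ζ) := by
    filter_upwards [coe_smul_ofComplex_eventuallyEq hg z] with ζ hζ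
    simp only [Function.comp_apply]
    rw [← hζ, ofComplex_apply]
  have h1 := (hcomp.congr_of_eventuallyEq hev).const_mul ((denom g x) ^ w)
  refine h1.congr_deriv ?_
  have hx := denom_ne_zero g x
  have hz := denom_ne_zero g z
  have habs : |g.det.val| = g.det.val := abs_of_pos hg
  have e1 : ((w : ℤ) + 2 - 1) = ((w + 1 : ℕ) : ℤ) := by push_cast; ring
  have e2 : -((w : ℤ) + 2) = -((w + 2 : ℕ) : ℤ) := by push_cast; ring
  rw [ModularForm.slash_apply, σ_eq_refl hg, ContinuousAlgEquiv.refl_apply, habs, e1, e2,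
    zpow_neg, zpow_natCast, zpow_natCast, hmz, moebius_sub hg x z, div_pow, mul_pow, mul_pow]
  field_simp
  ring

end Transform

open Transform

theorem bar_mul (w : ℕ) {g h : GL (Fin 2) ℝ} (_hg : 0 < g.det.val) (hh : 0 < h.det.val)
    (φ : ℍ → ℂ) : bar w (g * h) φ = bar w h (bar w g φ) := by
  funext x
  simp only [bar]
  rw [denom_cocycle_σ g h x, mul_smul, σ_eq_refl hh, ContinuousAlgEquiv.refl_apply, mul_pow]
  ring

theorem eich_transform (w : ℕ) {g : GL (Fin 2) ℝ} (hg : 0 < g.det.val) {f f' : ℍ → ℂ}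
    (hf : Nice f) (hf' : Nice f') (hff' : f' = f ∣[(w : ℤ) + 2] g) (z z' x : ℍ) :
    bar w g (eich w f (g • z)) x - eich w f' z x =
      bar w g (eich w f (g • z')) x - eich w f' z' x := by
  have key : ∀ ζ : ℍ, HasDerivAt (fun ξ : ℂ => bar w g (eich w f (g • ofComplex ξ)) x -
      eich w f' (ofComplex ξ) x) 0 (ζ : ℂ) := by
    intro ζ
    have h1 := hasDerivAt_bar_eich w hg hf ζ x
    have h2 := hasDerivAt_eich w hf' ζ x
    have h3 := h1.sub h2
    refine h3.congr_deriv ?_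
    rw [hff', sub_self]
  have := const_of_hasDerivAt_zero key z z'
  simpa only [ofComplex_apply] using this

/-- for upper triangular `g` the image of the vertical ray through `0` is a vertical ray -/
theorem Transform.smul_vertical {g : GL (Fin 2) ℝ} (hg : 0 < g.det.val) (hg10 : g 1 0 = 0)
    (h00 : 0 < g 0 0) (h11 : 0 < g 1 1) {y : ℝ} (hy : 0 < y) :
    g • ofComplex (((0 : ℝ) : ℂ) + y * Complex.I) =
      ofComplex (((g 0 1 / g 1 1 : ℝ) : ℂ) + ((g 0 0 / g 1 1 * y : ℝ) : ℂ) * Complex.I) := by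
  have him : 0 < (((0 : ℝ) : ℂ) + y * Complex.I).im := by simpa using hy
  have him' : 0 < (((g 0 1 / g 1 1 : ℝ) : ℂ) + ((g 0 0 / g 1 1 * y : ℝ) : ℂ) * Complex.I).im := by
    simp only [Complex.add_im, Complex.ofReal_im, Complex.mul_im, Complex.ofReal_re,
      Complex.I_im, Complex.I_re, mul_zero, mul_one, zero_add, add_zero]
    positivity
  apply UpperHalfPlane.ext
  rw [coe_smul_of_det_pos hg, ofComplex_apply_of_im_pos him, ofComplex_apply_of_im_pos him']
  have h11' : ((g 1 1 : ℝ) : ℂ) ≠ 0 := by exact_mod_cast h11.ne'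
  simp only [num, denom, hg10]
  push_cast
  rw [zero_mul, zero_add, zero_add, div_eq_iff h11']
  field_simp
  ring

theorem eich_transform_upper (w : ℕ) {g : GL (Fin 2) ℝ} (hg : 0 < g.det.val)
    (hg10 : g 1 0 = 0) (hg00 : 0 < g 0 0) {f f' : ℍ → ℂ}
    (hf : Nice f) (hf' : Nice f') (hff' : f' = f ∣[(w : ℤ) + 2] g) (z x : ℍ) :
    bar w g (eich w f (g • z)) x = eich w f' z x := by
  have hdet : (g.det.val : ℝ) = g 0 0 * g 1 1 - g 0 1 * g 1 0 := by
    rw [Matrix.GeneralLinearGroup.val_det_apply, Matrix.det_fin_two]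
  have h11 : 0 < g 1 1 := by
    have h := hg
    rw [hdet, hg10, mul_zero, sub_zero] at h
    exact (mul_pos_iff_of_pos_left hg00).mp h
  have hc : ∀ y : ℝ, bar w g (eich w f (g • z)) x - eich w f' z x =
      bar w g (eich w f (g • ofComplex (((0 : ℝ) : ℂ) + y * Complex.I))) x -
        eich w f' (ofComplex (((0 : ℝ) : ℂ) + y * Complex.I)) x :=
    fun y => eich_transform w hg hf hf' hff' z _ x
  have t2 := tendsto_eich_vertical w hf' x 0
  have hscale : Tendsto (fun y : ℝ => g 0 0 / g 1 1 * y) atTop atTop :=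
    tendsto_id.const_mul_atTop (div_pos hg00 h11)
  have t1' := (tendsto_eich_vertical w hf (g • x) (g 0 1 / g 1 1)).comp hscale
  have t1 : Tendsto (fun y : ℝ =>
      bar w g (eich w f (g • ofComplex (((0 : ℝ) : ℂ) + y * Complex.I))) x) atTop (𝓝 0) := by
    have h := t1'.const_mul ((denom g x) ^ w)
    rw [mul_zero] at h
    refine h.congr' ?_
    filter_upwards [eventually_gt_atTop 0] with y hy
    simp only [bar, Function.comp_apply]
    rw [Transform.smul_vertical hg hg10 hg00 h11 hy]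
  have h0 : Tendsto (fun _ : ℝ => bar w g (eich w f (g • z)) x - eich w f' z x) atTop
      (𝓝 (0 - 0)) := (t1.sub t2).congr (fun y => (hc y).symm)
  have hc0 := tendsto_nhds_unique tendsto_const_nhds h0
  rw [sub_zero] at hc0
  exact sub_eq_zero.mp hc0

end Fermat.Agent.S22

end
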