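/-
S22, piece P-PER: period polynomials of cusp forms on `Gamma0 N`:
linearity, cocycle relation, compatibility with the Hecke operators.
-/
import Fermat.Agent.S22.Poly
import Fermat.Agent.S22.Phi
import Fermat.Agent.S22.Transform
import Fermat.Agent.S22.NiceForms
import Fermat.Prelude.Sol.S_ModularForm_heckeT_slash_eq_self_of_mem_Gamma0

set_option autoImplicit false

noncomputable section

open UpperHalfPlane Polynomial Filter Topology
open scoped MatrixGroups ModularForm Manifold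

namespace Fermat.Agent.S22

namespace Period

theorem bar_add (w : ℕ) (g : GL (Fin 2) ℝ) (φ ψ : ℍ → ℂ) :
    bar w g (φ + ψ) = bar w g φ + bar w g ψ := by
  funext x
  simp only [bar, Pi.add_apply]
  ring

theorem bar_sub (w : ℕ) (g : GL (Fin 2) ℝ) (φ ψ : ℍ → ℂ) :
    bar w g (φ - ψ) = bar w g φ - bar w g ψ := by
  funext x
  simp only [bar, Pi.sub_apply]
  ring

theorem bar_smul (w : ℕ) (g : GL (Fin 2) ℝ) (c : ℂ) (φ : ℍ → ℂ) :
    bar w g (c • φ) = c • bar w g φ := by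
  funext x
  simp only [bar, Pi.smul_apply, smul_eq_mul]
  ring

theorem bar_sum (w : ℕ) (g : GL (Fin 2) ℝ) {ι : Type*} (s : Finset ι) (φ : ι → ℍ → ℂ) :
    bar w g (∑ i ∈ s, φ i) = ∑ i ∈ s, bar w g (φ i) := by
  funext x
  simp only [bar, Finset.sum_apply, Finset.mul_sum]

theorem det_mapGL_pos (γ : SL(2, ℤ)) :
    0 < (Matrix.SpecialLinearGroup.mapGL ℝ γ : GL (Fin 2) ℝ).det.val := by
  simp

theorem mapGL_entry (γ : SL(2, ℤ)) (i j : Fin 2) :
    ((Matrix.SpecialLinearGroup.mapGL ℝ γ : GL (Fin 2) ℝ) i j : ℝ) =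
      (((γ : Matrix (Fin 2) (Fin 2) ℤ) i j : ℤ) : ℝ) := by
  simp

/-- the period function at an element of `SL(2, ℤ)` is a polynomial function of degree `≤ w` -/
theorem perFun_poly (w : ℕ) (f : ℍ → ℂ) (γ : SL(2, ℤ)) :
    ∃ p : ℂ[X], p.natDegree ≤ w ∧
      ∀ x : ℍ, perFun w f (Matrix.SpecialLinearGroup.mapGL ℝ γ) x = p.eval (x : ℂ) := by
  obtain ⟨p1, hp1, h1⟩ := eich_poly w f ((Matrix.SpecialLinearGroup.mapGL ℝ γ) • UpperHalfPlane.I)
  obtain ⟨p0, hp0, h0⟩ := eich_poly w f UpperHalfPlane.I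
  refine ⟨polyAct w (γ : Matrix (Fin 2) (Fin 2) ℤ) p1 - p0, ?_, fun x => ?_⟩
  · exact (natDegree_sub_le _ _).trans (max_le (natDegree_polyAct_le w _ p1) hp0)
  · have e1 : eich w f ((Matrix.SpecialLinearGroup.mapGL ℝ γ) • UpperHalfPlane.I) =
        fun y : ℍ => p1.eval (y : ℂ) := funext h1
    simp only [perFun, Pi.sub_apply, e1, eval_sub, h0 x]
    rw [bar_eval w _ (γ : Matrix (Fin 2) (Fin 2) ℤ) (mapGL_entry γ) (det_mapGL_pos γ) hp1 x]

end Period

open Period

variable {N : ℕ} {w : ℕ}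

theorem per_eval (f : CuspForm (CongruenceSubgroup.Gamma0 N) ((w : ℤ) + 2)) (γ : SL(2, ℤ))
    (x : ℍ) : (per w ⇑f γ).eval (x : ℂ) =
      perFun w ⇑f (Matrix.SpecialLinearGroup.mapGL ℝ γ) x := by
  obtain ⟨p, -, hp⟩ := perFun_poly w ⇑f γ
  rw [per, polyOf_eq hp, hp x]

theorem per_natDegree_le (f : CuspForm (CongruenceSubgroup.Gamma0 N) ((w : ℤ) + 2))
    (γ : SL(2, ℤ)) : (per w ⇑f γ).natDegree ≤ w := by
  obtain ⟨p, hpw, hp⟩ := perFun_poly w ⇑f γ
  rw [per, polyOf_eq hp]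
  exact hpw

theorem per_add (f g : CuspForm (CongruenceSubgroup.Gamma0 N) ((w : ℤ) + 2)) (γ : SL(2, ℤ)) :
    per w ⇑(f + g) γ = per w ⇑f γ + per w ⇑g γ := by
  refine polyOf_eq fun x => ?_
  rw [eval_add, per_eval, per_eval]
  have hf := nice_cuspForm f
  have hg := nice_cuspForm g
  simp only [perFun, Pi.sub_apply, bar, FunLike.coe_add, eich_add w hf hg]
  ring

theorem per_smul (c : ℂ) (f : CuspForm (CongruenceSubgroup.Gamma0 N) ((w : ℤ) + 2))
    (γ : SL(2, ℤ)) : per w ⇑(c • f) γ = c • per w ⇑f γ := by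
  refine polyOf_eq fun x => ?_
  rw [eval_smul, per_eval]
  have hf := nice_cuspForm f
  have hc : ⇑(c • f) = c • ⇑f := by
    funext z
    rfl
  simp only [perFun, Pi.sub_apply, bar, hc, eich_smul w c hf, smul_eq_mul]
  ring

theorem Period.slash_eq_self (f : CuspForm (CongruenceSubgroup.Gamma0 N) ((w : ℤ) + 2))
    {γ : SL(2, ℤ)} (hγ : γ ∈ CongruenceSubgroup.Gamma0 N) :
    (⇑f : ℍ → ℂ) = ⇑f ∣[(w : ℤ) + 2] (Matrix.SpecialLinearGroup.mapGL ℝ γ) :=
  (SlashInvariantFormClass.slash_action_eq f _ (Subgroup.mem_map_of_mem _ hγ)).symm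

theorem perFun_eq (f : CuspForm (CongruenceSubgroup.Gamma0 N) ((w : ℤ) + 2)) {γ : SL(2, ℤ)}
    (hγ : γ ∈ CongruenceSubgroup.Gamma0 N) (z x : ℍ) :
    perFun w ⇑f (Matrix.SpecialLinearGroup.mapGL ℝ γ) x =
      bar w (Matrix.SpecialLinearGroup.mapGL ℝ γ)
        (eich w ⇑f ((Matrix.SpecialLinearGroup.mapGL ℝ γ) • z)) x - eich w ⇑f z x := by
  have hf := nice_cuspForm f
  have h := eich_transform w (det_mapGL_pos γ) hf hf (Period.slash_eq_self f hγ) z
    UpperHalfPlane.I x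
  rw [h]
  rfl

/-- function form of `perFun_eq` -/
theorem Period.bar_eich_eq (f : CuspForm (CongruenceSubgroup.Gamma0 N) ((w : ℤ) + 2))
    {γ : SL(2, ℤ)} (hγ : γ ∈ CongruenceSubgroup.Gamma0 N) (z : ℍ) :
    bar w (Matrix.SpecialLinearGroup.mapGL ℝ γ)
        (eich w ⇑f ((Matrix.SpecialLinearGroup.mapGL ℝ γ) • z)) =
      eich w ⇑f z + fun x : ℍ => (per w ⇑f γ).eval (x : ℂ) := by
  funext x
  rw [Pi.add_apply, per_eval, perFun_eq f hγ z x]
  ring

theorem per_mul [NeZero N] (f : CuspForm (CongruenceSubgroup.Gamma0 N) ((w : ℤ) + 2))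
    {γ δ : SL(2, ℤ)} (hγ : γ ∈ CongruenceSubgroup.Gamma0 N)
    (hδ : δ ∈ CongruenceSubgroup.Gamma0 N) :
    per w ⇑f (γ * δ) = polyAct w (δ : Matrix (Fin 2) (Fin 2) ℤ) (per w ⇑f γ) + per w ⇑f δ := by
  apply eval_injective
  intro x
  rw [per_eval, eval_add, per_eval, perFun_eq f hδ UpperHalfPlane.I x]
  simp only [perFun, Pi.sub_apply, map_mul]
  rw [bar_mul w (det_mapGL_pos γ) (det_mapGL_pos δ), mul_smul, Period.bar_eich_eq f hγ,
    Period.bar_add, Pi.add_apply,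
    bar_eval w _ (δ : Matrix (Fin 2) (Fin 2) ℤ) (mapGL_entry δ) (det_mapGL_pos δ)
      (per_natDegree_le f γ) x]
  ring

/-- General Hecke compatibility of period polynomials: if `f' = ∑ x, f ∣ α x` for upper
triangular integral matrices `α x` of positive determinant and `α x * γ = δ x * α (π x)` with
`δ x ∈ Gamma0 N` and `π` a permutation, then
`per f' γ = ∑ x, polyAct (α (π x)) (per f (δ x))`. -/
theorem Period.per_hecke_general {ι : Type} [Fintype ι] (α : ι → GL (Fin 2) ℝ)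
    (Aα : ι → Matrix (Fin 2) (Fin 2) ℤ) (hA : ∀ x i j, ((α x) i j : ℝ) = ((Aα x) i j : ℝ))
    (hdet : ∀ x, 0 < (α x).det.val) (h10 : ∀ x, (α x) 1 0 = 0) (h00 : ∀ x, 0 < (α x) 0 0)
    {γ : SL(2, ℤ)} (π : Equiv.Perm ι) (δ : ι → SL(2, ℤ))
    (hδ : ∀ x, δ x ∈ CongruenceSubgroup.Gamma0 N)
    (hmul : ∀ x, α x * Matrix.SpecialLinearGroup.mapGL ℝ γ =
      Matrix.SpecialLinearGroup.mapGL ℝ (δ x) * α (π x))
    (f f' : CuspForm (CongruenceSubgroup.Gamma0 N) ((w : ℤ) + 2))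
    (hT : (⇑f' : ℍ → ℂ) = ∑ x, ⇑f ∣[(w : ℤ) + 2] α x) :
    per w ⇑f' γ = ∑ x, polyAct w (Aα (π x)) (per w ⇑f (δ x)) := by
  have hF := nice_cuspForm f
  have hFx : ∀ x, Nice (⇑f ∣[(w : ℤ) + 2] α x) := fun x =>
    nice_slash_upper hF _ (hdet x) (h10 x)
  have key : ∀ z : ℍ, eich w ⇑f' z = ∑ x, bar w (α x) (eich w ⇑f (α x • z)) := by
    intro z
    funext y
    rw [hT, eich_sum w _ _ (fun x _ => hFx x), Finset.sum_apply]
    refine Finset.sum_congr rfl fun x _ => ?_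
    exact (eich_transform_upper w (hdet x) (h10 x) (h00 x) hF (hFx x) rfl z y).symm
  have step : ∀ x, bar w (Matrix.SpecialLinearGroup.mapGL ℝ γ)
      (bar w (α x) (eich w ⇑f (α x • (Matrix.SpecialLinearGroup.mapGL ℝ γ • UpperHalfPlane.I)))) =
      bar w (α (π x)) (eich w ⇑f (α (π x) • UpperHalfPlane.I)) +
        fun y : ℍ => (polyAct w (Aα (π x)) (per w ⇑f (δ x))).eval (y : ℂ) := by
    intro x
    rw [← bar_mul w (hdet x) (det_mapGL_pos γ), ← mul_smul, hmul x,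
      bar_mul w (det_mapGL_pos (δ x)) (hdet (π x)), mul_smul, Period.bar_eich_eq f (hδ x),
      Period.bar_add]
    congr 1
    funext y
    exact bar_eval w _ (Aα (π x)) (hA (π x)) (hdet (π x)) (per_natDegree_le f (δ x)) y
  apply eval_injective
  intro y
  rw [per_eval, perFun, Pi.sub_apply, key, key, Period.bar_sum, Finset.sum_apply,
    Finset.sum_apply, eval_finsetSum]
  simp only [step, Pi.add_apply, Finset.sum_add_distrib]
  rw [Equiv.sum_comp π (fun x => bar w (α x) (eich w ⇑f (α x • UpperHalfPlane.I)) y)]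
  ring

open P2MW.S_ModularForm_heckeT_slash_eq_self_of_mem_Gamma0.ModularForm.HeckeSlashInvariance in
theorem per_heckeT [NeZero N] {p : ℕ} (hp : p.Prime) (hpN : ¬ p ∣ N) {γ : SL(2, ℤ)}
    (hγ : γ ∈ CongruenceSubgroup.Gamma0 N) :
    ∃ (ι : Type) (_ : Fintype ι) (δ : ι → SL(2, ℤ)) (A : ι → Matrix (Fin 2) (Fin 2) ℤ),
      (∀ x, δ x ∈ CongruenceSubgroup.Gamma0 N) ∧
      ∀ f : CuspForm (CongruenceSubgroup.Gamma0 N) ((w : ℤ) + 2),
        per w ⇑(CuspForm.heckeTLin ((w : ℤ) + 2) hp hpN f) γ =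
          ∑ x, polyAct w (A x) (per w ⇑f (δ x)) := by
  have : Fact p.Prime := ⟨hp⟩
  have hp0 : p ≠ 0 := hp.ne_zero
  have hγN : (N : ℤ) ∣ γ 1 0 :=
    (ZMod.intCast_zmod_eq_zero_iff_dvd _ _).mp (CongruenceSubgroup.Gamma0_mem.mp hγ)
  choose δ hδN hδ using fun x : OnePoint (ZMod p) => heckeRep_mul hpN γ hγN x
  let Aα : OnePoint (ZMod p) → Matrix (Fin 2) (Fin 2) ℤ := fun x =>
    x.elim !![(p : ℤ), 0; 0, 1] (fun j => !![1, (j.val : ℤ); 0, (p : ℤ)])
  refine ⟨OnePoint (ZMod p), inferInstance, δ,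
    fun x => Aα (MulAction.toPerm (redMatrix p γ) x), ?_, ?_⟩
  · intro x
    exact CongruenceSubgroup.Gamma0_mem.mpr ((ZMod.intCast_zmod_eq_zero_iff_dvd _ _).mpr (hδN x))
  · intro f
    refine Period.per_hecke_general (heckeRep p) Aα ?_ ?_ ?_ ?_ (MulAction.toPerm (redMatrix p γ))
      δ ?_ hδ f _ ?_
    · intro x i j
      induction x using OnePoint.rec with
      | infty =>
        have := congrFun (congrFun (ModularForm.val_heckeDiagMatrix hp0) i) j
        simp only [heckeRep_infty]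
        rw [this]
        fin_cases i <;> fin_cases j <;> simp [Aα, OnePoint.elim_infty]
      | coe y =>
        have := congrFun (congrFun (ModularForm.val_heckeMatrix hp0 y.val) i) j
        simp only [heckeRep_coe]
        rw [this]
        fin_cases i <;> fin_cases j <;> simp [Aα, OnePoint.elim_some]
    · intro x
      induction x using OnePoint.rec with
      | infty => exact ModularForm.det_heckeDiagMatrix_pos p
      | coe y => exact ModularForm.det_heckeMatrix_pos p y.val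
    · intro x
      induction x using OnePoint.rec with
      | infty =>
        have := congrFun (congrFun (ModularForm.val_heckeDiagMatrix hp0) 1) 0
        simpa using this
      | coe y =>
        have := congrFun (congrFun (ModularForm.val_heckeMatrix hp0 y.val) 1) 0
        simpa using this
    · intro x
      induction x using OnePoint.rec with
      | infty =>
        have := congrFun (congrFun (ModularForm.val_heckeDiagMatrix hp0) 0) 0
        simp only [heckeRep_infty]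
        rw [this]
        simpa using hp.pos
      | coe y =>
        have := congrFun (congrFun (ModularForm.val_heckeMatrix hp0 y.val) 0) 0
        simp only [heckeRep_coe]
        rw [this]
        simp
    · intro x
      exact CongruenceSubgroup.Gamma0_mem.mpr ((ZMod.intCast_zmod_eq_zero_iff_dvd _ _).mpr (hδN x))
    · rw [CuspForm.coe_heckeTLin_apply, heckeT_eq_sum_onePoint]

open P2MW.S_ModularForm_heckeT_slash_eq_self_of_mem_Gamma0.ModularForm.HeckeSlashInvariance in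
theorem per_heckeU [NeZero N] {q : ℕ} (hqN : q ∣ N) {γ : SL(2, ℤ)}
    (hγ : γ ∈ CongruenceSubgroup.Gamma0 N) :
    ∃ (ι : Type) (_ : Fintype ι) (δ : ι → SL(2, ℤ)) (A : ι → Matrix (Fin 2) (Fin 2) ℤ),
      (∀ x, δ x ∈ CongruenceSubgroup.Gamma0 N) ∧
      ∀ f : CuspForm (CongruenceSubgroup.Gamma0 N) ((w : ℤ) + 2),
        per w ⇑(CuspForm.heckeULin ((w : ℤ) + 2) hqN f) γ =
          ∑ x, polyAct w (A x) (per w ⇑f (δ x)) := by
  have hq0 : q ≠ 0 := fun h => NeZero.ne N (Nat.eq_zero_of_zero_dvd (h ▸ hqN))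
  have : NeZero q := ⟨hq0⟩
  have hγN : (N : ℤ) ∣ γ 1 0 :=
    (ZMod.intCast_zmod_eq_zero_iff_dvd _ _).mp (CongruenceSubgroup.Gamma0_mem.mp hγ)
  have hc : (q : ℤ) ∣ γ 1 0 := (Int.natCast_dvd_natCast.mpr hqN).trans hγN
  have hc0 : ((γ 1 0 : ℤ) : ZMod q) = 0 := (ZMod.intCast_zmod_eq_zero_iff_dvd _ _).mpr hc
  choose δ hδ10 hδ using fun x : ZMod q => heckeMatrix_mul_of_dvd γ hc x
  have hδN : ∀ x, δ x ∈ CongruenceSubgroup.Gamma0 N := by
    intro x
    rw [CongruenceSubgroup.Gamma0_mem, hδ10 x]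
    push_cast
    rw [CongruenceSubgroup.Gamma0_mem.mp hγ, mul_zero]
  let Aα : ZMod q → Matrix (Fin 2) (Fin 2) ℤ := fun j => !![1, (j.val : ℤ); 0, (q : ℤ)]
  refine ⟨ZMod q, inferInstance, δ, fun x => Aα (affinePerm γ hc0 x), hδN, ?_⟩
  intro f
  refine Period.per_hecke_general (fun x : ZMod q => ModularForm.heckeMatrix q x.val) Aα ?_ ?_ ?_ ?_
    (affinePerm γ hc0) δ hδN hδ f _ ?_
  · intro y i j
    have := congrFun (congrFun (ModularForm.val_heckeMatrix hq0 y.val) i) j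
    rw [this]
    fin_cases i <;> fin_cases j <;> simp [Aα]
  · intro y
    exact ModularForm.det_heckeMatrix_pos q y.val
  · intro y
    have := congrFun (congrFun (ModularForm.val_heckeMatrix hq0 y.val) 1) 0
    simpa using this
  · intro y
    have := congrFun (congrFun (ModularForm.val_heckeMatrix hq0 y.val) 0) 0
    rw [this]
    simp
  · rw [CuspForm.coe_heckeULin_apply, heckeU_eq_sum_zmod]

end Fermat.Agent.S22

end
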