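/-
S22, piece P-INJ: the period polynomials of a cusp form determine it.

If all period polynomials of `f` (weight `w + 2`, level `Gamma0 N`) vanish, then the diagonal of
the Eichler integral, `z ↦ eich w f z z = w! * iterPrim f (w + 1) z`, is a holomorphic function of
weight `-w` for `Gamma0 N`; it is bounded at every cusp (at a cusp `σ ∞` it differs from the
Eichler integral of `f ∣ σ` by a polynomial, which periodicity forces to be constant), so it is a
modular form of nonpositive weight vanishing at infinity, hence zero.  Differentiating `w + 1`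
times gives `f = 0`.
-/
import Fermat.Agent.S22.Prim
import Fermat.Agent.S22.Phi
import Fermat.Agent.S22.Poly
import Fermat.Agent.S22.Transform
import Fermat.Agent.S22.NiceForms
import Fermat.Agent.S22.Period

set_option autoImplicit false

noncomputable section

open UpperHalfPlane Polynomial Filter Topology
open scoped MatrixGroups ModularForm Manifold

namespace Fermat.Agent.S22

namespace Inj

open CongruenceSubgroup Matrix.SpecialLinearGroup

/-- A holomorphic function on the upper half-plane which is slash-invariant of weight `k ≤ 0`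
under `Γ₀(N)`, bounded at `i∞` after slashing with every element of `SL(2, ℤ)`, and which tends
to `0` at `i∞`, vanishes identically. -/
theorem eq_zero_of_slash_invariant_of_bdd (N : ℕ) [NeZero N] (k : ℤ) (hk : k ≤ 0) (h : ℍ → ℂ)
    (hh : MDiff h)
    (hinv : ∀ γ ∈ ((Gamma0 N : Subgroup SL(2, ℤ)) : Subgroup (GL (Fin 2) ℝ)), h ∣[k] γ = h)
    (hbdd : ∀ σ : SL(2, ℤ), IsBoundedAtImInfty (h ∣[k] σ))
    (hzero : IsZeroAtImInfty h) : h = 0 := by
  let F : ModularForm ((Gamma0 N : Subgroup SL(2, ℤ)) : Subgroup (GL (Fin 2) ℝ)) k :=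
    { toFun := h
      slash_action_eq' := hinv
      holo' := hh
      bdd_at_cusps' := fun {c} hc => by
        have hc' : IsCusp c 𝒮ℒ := (Subgroup.IsArithmetic.isCusp_iff_isCusp_SL2Z _).mp hc
        obtain ⟨g, rfl⟩ := isCusp_SL2Z_iff'.mp hc'
        exact (OnePoint.isBoundedAt_iff_exists_SL2Z hc').mpr ⟨g, rfl, hbdd g⟩ }
  have hFh : (F : ℍ → ℂ) = h := rfl
  rcases hk.lt_or_eq with hk | rfl
  · have hF : F = 0 := ModularForm.isZero_of_neg_weight hk F
    rw [← hFh, hF]; rfl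
  · obtain ⟨c, hc⟩ := ModularForm.eq_const_of_weight_zero F
    rw [hFh] at hc
    have hc0 : c = 0 := by
      have h1 : Tendsto h atImInfty (𝓝 0) := hzero
      rw [hc] at h1
      exact tendsto_nhds_unique tendsto_const_nhds h1
    rw [hc, hc0]; rfl

theorem Gamma_le_Gamma0 (N : ℕ) : Gamma N ≤ Gamma0 N := by
  intro γ hγ
  rw [Gamma_mem] at hγ
  rw [Gamma0_mem]
  exact hγ.2.2.1

theorem conj_T_pow_mem_Gamma0 (N : ℕ) (σ : SL(2, ℤ)) :
    σ * ModularGroup.T ^ (N : ℤ) * σ⁻¹ ∈ Gamma0 N := by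
  apply Gamma_le_Gamma0
  have h1 : ModularGroup.T ^ (N : ℤ) ∈ Gamma N := by
    simpa using ModularGroup_T_pow_mem_Gamma (N : ℤ) (N : ℤ) dvd_rfl
  exact (Gamma_normal (N := N)).conj_mem _ h1 σ

theorem slash_T_zpow_apply (k : ℤ) (g : ℍ → ℂ) (n : ℤ) (z : ℍ) :
    (g ∣[k] (ModularGroup.T ^ n)) z = g ((n : ℝ) +ᵥ z) := by
  rw [ModularForm.SL_slash_apply]
  have hd : denom (ModularGroup.T ^ n : SL(2, ℤ)) z = 1 := by
    rw [ModularGroup.denom_apply, ModularGroup.coe_T_zpow]
    simp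
  rw [hd, one_zpow, mul_one, UpperHalfPlane.modular_T_zpow_smul]

/-- If `g` is weight-`k` invariant under `Γ₀(N)`, then every `SL(2, ℤ)`-translate of `g`
is `N`-periodic. -/
theorem slash_periodic (N : ℕ) (k : ℤ) (g : ℍ → ℂ)
    (hinv : ∀ γ : SL(2, ℤ), γ ∈ Gamma0 N → g ∣[k] γ = g) (σ : SL(2, ℤ)) (z : ℍ) :
    (g ∣[k] σ) ((N : ℝ) +ᵥ z) = (g ∣[k] σ) z := by
  have h1 : (g ∣[k] σ) ∣[k] (ModularGroup.T ^ (N : ℤ)) = g ∣[k] σ := by
    rw [← SlashAction.slash_mul]
    have : σ * ModularGroup.T ^ (N : ℤ) = (σ * ModularGroup.T ^ (N : ℤ) * σ⁻¹) * σ := by group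
    rw [this, SlashAction.slash_mul, hinv _ (conj_T_pow_mem_Gamma0 N σ)]
  have h2 := congrFun h1 z
  rw [slash_T_zpow_apply] at h2
  simpa using h2

/-- Iterating `slash_periodic`. -/
theorem slash_periodic_nat_mul (N : ℕ) (k : ℤ) (g : ℍ → ℂ)
    (hinv : ∀ γ : SL(2, ℤ), γ ∈ Gamma0 N → g ∣[k] γ = g) (σ : SL(2, ℤ)) (m : ℕ) (z : ℍ) :
    (g ∣[k] σ) (((m * N : ℕ) : ℝ) +ᵥ z) = (g ∣[k] σ) z := by
  induction m with
  | zero => simp
  | succ m ih =>
    have : (((m + 1) * N : ℕ) : ℝ) +ᵥ z = (N : ℝ) +ᵥ (((m * N : ℕ) : ℝ) +ᵥ z) := by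
      rw [vadd_vadd]; congr 1; push_cast; ring
    rw [this, slash_periodic N k g hinv σ, ih]

/-- Periodicity in the `∘ ofComplex` formulation gives periodicity for the additive action. -/
theorem periodic_vadd {φ : ℍ → ℂ} {c : ℝ} (hφ : Function.Periodic (φ ∘ ofComplex) c) (z : ℍ) :
    φ (c +ᵥ z) = φ z := by
  have h1 := hφ (z : ℂ)
  simp only [Function.comp_apply, ofComplex_apply] at h1
  rw [← h1]
  congr 1
  have : ((z : ℂ) + (c : ℂ)) = ((c +ᵥ z : ℍ) : ℂ) := by rw [coe_vadd]; ring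
  rw [this, ofComplex_apply]

/-- If the `(r+1)`-st iterated primitive vanishes then so does the `r`-th. -/
theorem iterPrim_eq_zero_of_succ {f : ℍ → ℂ} (hf : Nice f) (r : ℕ)
    (h : iterPrim f (r + 1) = 0) : iterPrim f r = 0 := by
  funext z
  have h1 := (hf.isPrim_iterPrim r).deriv z
  rw [h] at h1
  have h2 : HasDerivAt ((0 : ℍ → ℂ) ∘ ofComplex) (0 : ℂ) (z : ℂ) := by
    have : ((0 : ℍ → ℂ) ∘ ofComplex) = fun _ : ℂ => (0 : ℂ) := by funext x; simp
    rw [this]; exact hasDerivAt_const _ _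
  exact h1.unique h2

theorem eq_zero_of_iterPrim_eq_zero {f : ℍ → ℂ} (hf : Nice f) (r : ℕ)
    (h : iterPrim f r = 0) : f = 0 := by
  induction r with
  | zero => exact h
  | succ r ih => exact ih (iterPrim_eq_zero_of_succ hf r h)

end Inj

open CongruenceSubgroup Matrix.SpecialLinearGroup in
theorem per_injective {N : ℕ} {w : ℕ} [NeZero N]
    (f : CuspForm (CongruenceSubgroup.Gamma0 N) ((w : ℤ) + 2))
    (h : ∀ γ ∈ CongruenceSubgroup.Gamma0 N, per w ⇑f γ = 0) : f = 0 := by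
  have hf : Nice ⇑f := nice_cuspForm f
  have hFnice : Nice (iterPrim ⇑f (w + 1)) := hf.iterPrim_nice (w + 1)
  -- the diagonal of the Eichler integral
  set H : ℍ → ℂ := fun z => eich w ⇑f z z with hH
  have hHF : H = ((w.factorial : ℂ)) • iterPrim ⇑f (w + 1) := by
    funext z; simp only [hH, eich_diag, Pi.smul_apply, smul_eq_mul]
  -- invariance of `H` under `Gamma0 N` in weight `-w`
  have hinvSL : ∀ γ : SL(2, ℤ), γ ∈ Gamma0 N → H ∣[(-(w : ℤ))] γ = H := by
    intro γ hγ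
    funext z
    have h0 : perFun w ⇑f (mapGL ℝ γ) z = 0 := by
      rw [← per_eval, h γ hγ]; simp
    have h1 := perFun_eq f hγ z z
    rw [h0] at h1
    rw [ModularForm.SL_slash_apply, neg_neg, zpow_natCast]
    have h2 : bar w (mapGL ℝ γ) (eich w ⇑f ((mapGL ℝ γ) • z)) z =
        (denom (mapGL ℝ γ) z) ^ w * H ((mapGL ℝ γ) • z) := rfl
    rw [h2] at h1
    have h3 : H ((mapGL ℝ γ) • z) * (denom (mapGL ℝ γ) z) ^ w = H z := by
      have : eich w ⇑f z z = H z := rfl
      rw [this] at h1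
      linear_combination -h1
    exact h3
  have hinvGL : ∀ γ ∈ ((Gamma0 N : Subgroup SL(2, ℤ)) : Subgroup (GL (Fin 2) ℝ)),
      H ∣[(-(w : ℤ))] γ = H := by
    rintro _ ⟨γ, hγ, rfl⟩
    exact hinvSL γ hγ
  have hHmdiff : MDiff H := by
    rw [hHF]; exact hFnice.mdiff.const_smul _
  have hHzero : IsZeroAtImInfty H := by
    rw [hHF]
    have h1 : Tendsto (iterPrim ⇑f (w + 1)) atImInfty (𝓝 0) := hFnice.zero
    have h2 : Tendsto (fun z => (w.factorial : ℂ) • iterPrim ⇑f (w + 1) z) atImInfty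
        (𝓝 ((w.factorial : ℂ) • (0 : ℂ))) := h1.const_smul _
    rw [smul_zero] at h2
    exact h2
  -- boundedness at all cusps
  obtain ⟨M, hMpos, hMper⟩ := exists_period_slash_SL2Z f
  have hbdd : ∀ σ : SL(2, ℤ), IsBoundedAtImInfty (H ∣[(-(w : ℤ))] σ) := by
    intro σ
    set g : GL (Fin 2) ℝ := mapGL ℝ σ with hg
    have hgdet : 0 < g.det.val := by simp [hg]
    set f' : ℍ → ℂ := ⇑f ∣[(w : ℤ) + 2] g with hf'def
    have hf' : Nice f' := nice_slash_SL2Z f σ
    obtain ⟨p, hp, hpe⟩ := eich_poly w ⇑f (g • UpperHalfPlane.I)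
    obtain ⟨p', hp', hpe'⟩ := eich_poly w f' UpperHalfPlane.I
    have hA : ∀ i j, (g i j : ℝ) = (((σ : Matrix (Fin 2) (Fin 2) ℤ) i j : ℤ) : ℝ) := by
      intro i j; simp [hg]
    have hb : ∀ x : ℍ, bar w g (eich w ⇑f (g • UpperHalfPlane.I)) x =
        (polyAct w (σ : Matrix (Fin 2) (Fin 2) ℤ) p).eval (x : ℂ) := by
      intro x
      have : eich w ⇑f (g • UpperHalfPlane.I) = fun y : ℍ => p.eval (y : ℂ) := funext hpe
      rw [this]
      exact bar_eval w g _ hA hgdet hp x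
    set q : ℂ[X] := polyAct w (σ : Matrix (Fin 2) (Fin 2) ℤ) p - p' with hq
    -- the key identity
    have hkey : ∀ z : ℍ, (H ∣[(-(w : ℤ))] σ) z =
        (w.factorial : ℂ) * iterPrim f' (w + 1) z + q.eval (z : ℂ) := by
      intro z
      have h1 := eich_transform w hgdet hf hf' rfl z UpperHalfPlane.I z
      rw [hb z, hpe' z, eich_diag] at h1
      rw [ModularForm.SL_slash_apply, neg_neg, zpow_natCast]
      have h2 : bar w g (eich w ⇑f (g • z)) z = (denom g z) ^ w * H (g • z) := rfl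
      rw [h2] at h1
      have h3 : H (σ • z) * denom (σ : GL (Fin 2) ℝ) z ^ w = (denom g z) ^ w * H (g • z) := by
        rw [mul_comm]; rfl
      rw [h3, hq, eval_sub]
      linear_combination h1
    -- periodicity forces `q` to be constant
    have hperF' : Function.Periodic (iterPrim f' (w + 1) ∘ ofComplex) M :=
      hf'.iterPrim_periodic (hMper σ) (w + 1)
    have hNM : ((N * M : ℕ) : ℝ) ≠ 0 := by
      have : N * M ≠ 0 := Nat.mul_ne_zero (NeZero.ne N) hMpos.ne'
      exact_mod_cast this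
    obtain ⟨c, hc⟩ : ∃ c : ℂ, q = C c := by
      apply const_of_periodic_poly hNM
      intro x
      have hx : ((x : ℂ) + (((N * M : ℕ) : ℝ) : ℂ)) = (((((N * M : ℕ) : ℝ)) +ᵥ x : ℍ) : ℂ) := by
        rw [coe_vadd]; ring
      rw [hx]
      have e1 := hkey ((((N * M : ℕ) : ℝ)) +ᵥ x)
      have e2 := hkey x
      have e3 : (H ∣[(-(w : ℤ))] σ) ((((N * M : ℕ) : ℝ)) +ᵥ x) = (H ∣[(-(w : ℤ))] σ) x := by
        have := Inj.slash_periodic_nat_mul N (-(w : ℤ)) H hinvSL σ M x
        rwa [Nat.mul_comm M N] at this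
      have e4 : iterPrim f' (w + 1) ((((N * M : ℕ) : ℝ)) +ᵥ x) = iterPrim f' (w + 1) x := by
        have hper' : Function.Periodic (iterPrim f' (w + 1) ∘ ofComplex) (((N * M : ℕ) : ℝ)) := by
          have := hperF'.nat_mul N
          simpa [Nat.cast_mul] using this
        exact Inj.periodic_vadd hper' x
      rw [e3, e4] at e1
      linear_combination e2 - e1
    have hfun : (H ∣[(-(w : ℤ))] σ) =
        (fun z : ℍ => (w.factorial : ℂ) * iterPrim f' (w + 1) z + c) := by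
      funext z
      rw [hkey z, hc, eval_C]
    rw [hfun]
    have hz' : IsZeroAtImInfty (iterPrim f' (w + 1)) := (hf'.iterPrim_nice (w + 1)).zero
    have hb1 : IsBoundedAtImInfty (iterPrim f' (w + 1)) := hz'.isBoundedAtImInfty
    have hb2 : IsBoundedAtImInfty (fun _ : ℍ => (w.factorial : ℂ)) :=
      Filter.const_boundedAtFilter _ _
    have hb3 : IsBoundedAtImInfty (fun _ : ℍ => c) := Filter.const_boundedAtFilter _ _
    exact (hb2.mul hb1).add hb3
  have hH0 : H = 0 :=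
    Inj.eq_zero_of_slash_invariant_of_bdd N (-(w : ℤ)) (by omega) H hHmdiff hinvGL hbdd hHzero
  have hF0 : iterPrim ⇑f (w + 1) = 0 := by
    funext z
    have h1 := congrFun hH0 z
    rw [hHF] at h1
    simp only [Pi.smul_apply, smul_eq_mul, Pi.zero_apply, mul_eq_zero] at h1
    rcases h1 with h1 | h1
    · exact absurd h1 (by exact_mod_cast (Nat.factorial_ne_zero w))
    · exact h1
  have hf0 : (⇑f : ℍ → ℂ) = 0 := Inj.eq_zero_of_iterPrim_eq_zero hf (w + 1) hF0
  ext z
  exact congrFun hf0 z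

end Fermat.Agent.S22

end
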