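import Mathlib

set_option autoImplicit false

namespace Fermat.Agent.S22

/-- The `ℤ`-subalgebra of endomorphisms whose transpose preserves a `ℤ`-lattice `R` of
functionals. -/
def stabSubalgebra {V : Type*} [AddCommGroup V] [Module ℂ V]
    (R : Submodule ℤ (Module.Dual ℂ V)) : Subalgebra ℤ (Module.End ℂ V) where
  carrier := {t | ∀ r ∈ R, r ∘ₗ t ∈ R}
  mul_mem' := by
    intro a b ha hb r hr
    have : r ∘ₗ (a * b) = (r ∘ₗ a) ∘ₗ b := rfl
    rw [this]
    exact hb _ (ha r hr)
  add_mem' := by
    intro a b ha hb r hr
    rw [LinearMap.comp_add]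
    exact R.add_mem (ha r hr) (hb r hr)
  algebraMap_mem' := by
    intro n r hr
    have : r ∘ₗ (algebraMap ℤ (Module.End ℂ V) n) = n • r := by
      ext v
      simp
    rw [this]
    exact R.smul_mem n hr

theorem mem_stabSubalgebra {V : Type*} [AddCommGroup V] [Module ℂ V]
    (R : Submodule ℤ (Module.Dual ℂ V)) (t : Module.End ℂ V) :
    t ∈ stabSubalgebra R ↔ ∀ r ∈ R, r ∘ₗ t ∈ R := Iff.rfl

/-- Abstract finiteness lemma: if a finitely generated `ℤ`-module `R` of linear functionals on a
complex vector space `V` separates the points of `V` and is stable under precomposition with every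
element of a set `G` of endomorphisms, then the `ℤ`-algebra generated by `G` is a finitely
generated `ℤ`-module. -/
theorem finite_adjoin_of_lattice {V : Type*} [AddCommGroup V] [Module ℂ V]
    (G : Set (Module.End ℂ V)) (R : Submodule ℤ (Module.Dual ℂ V)) (hR : R.FG)
    (hstab : ∀ t ∈ G, ∀ r ∈ R, r ∘ₗ t ∈ R)
    (hsep : ∀ v : V, (∀ r ∈ R, r v = 0) → v = 0) :
    Module.Finite ℤ (Algebra.adjoin ℤ G) := by
  classical
  obtain ⟨s, hs⟩ := hR
  have hsR : ∀ x ∈ s, x ∈ R := fun x hx => hs ▸ Submodule.subset_span hx
  have hRfin : Module.Finite ℤ R := Module.Finite.iff_fg.2 ⟨s, hs⟩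
  set A := stabSubalgebra R with hA
  -- the evaluation map `A → (s → R)`, `t ↦ (r ↦ r ∘ t)`
  let Φ : A.toSubmodule →ₗ[ℤ] (s → R) :=
    { toFun := fun t x => ⟨(x : Module.Dual ℂ V) ∘ₗ (t : Module.End ℂ V), t.2 _ (hsR _ x.2)⟩
      map_add' := by
        intro a b
        funext x
        apply Subtype.ext
        simp [LinearMap.comp_add]
      map_smul' := by
        intro n a
        funext x
        apply Subtype.ext
        apply LinearMap.ext
        intro v
        simp }
  have hΦ : Function.Injective Φ := by
    intro a b hab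
    apply Subtype.ext
    apply LinearMap.ext
    intro v
    rw [← sub_eq_zero]
    apply hsep
    intro r hr
    rw [map_sub, sub_eq_zero]
    -- it suffices to check on the span of `s`
    have key : ∀ r ∈ Submodule.span ℤ (s : Set (Module.Dual ℂ V)),
        r ((a : Module.End ℂ V) v) = r ((b : Module.End ℂ V) v) := by
      intro r hr
      induction hr using Submodule.span_induction with
      | mem x hx =>
        have := congrArg (fun g => ((g ⟨x, hx⟩ : R) : Module.Dual ℂ V) v) hab
        simpa [Φ] using this
      | zero => simp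
      | add x y _ _ hx hy => simp [hx, hy]
      | smul n x _ hx => simp [hx]
    exact key r (hs ▸ hr)
  have hfinA : Module.Finite ℤ A.toSubmodule := Module.Finite.of_injective Φ hΦ
  have hnoeA : IsNoetherian ℤ A.toSubmodule := isNoetherian_of_isNoetherianRing_of_finite ℤ _
  have hle : Algebra.adjoin ℤ G ≤ A := Algebra.adjoin_le fun t ht => hstab t ht
  have hle' : (Algebra.adjoin ℤ G).toSubmodule ≤ A.toSubmodule := fun x hx => hle hx
  have h1 : (Submodule.comap A.toSubmodule.subtype (Algebra.adjoin ℤ G).toSubmodule).FG :=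
    IsNoetherian.noetherian _
  have h2 := h1.map A.toSubmodule.subtype
  rw [Submodule.map_comap_eq, Submodule.range_subtype, inf_eq_right.2 hle'] at h2
  exact Module.Finite.iff_fg.2 h2

end Fermat.Agent.S22
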