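/-
S22, piece P-LATTICE: the coefficients of the period polynomials span a finitely generated,
Hecke-stable, point-separating lattice of functionals on the space of cusp forms; hence the
Hecke algebra of weight `w + 2` is a finitely generated module over the integers.
-/
import Fermat.Agent.S22.Defs
import Fermat.Agent.S22.Lattice
import Fermat.Agent.S22.Poly
import Fermat.Agent.S22.Period
import Fermat.Agent.S22.Inj

set_option autoImplicit false

noncomputable section

open UpperHalfPlane Polynomial Filter Topology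
open scoped MatrixGroups ModularForm Manifold

namespace Fermat.Agent.S22.PeriodLattice

open Matrix

/-- `SL(2, ℤ)` is a finitely generated group. -/
theorem sl2z_fg : Group.FG (Matrix.SpecialLinearGroup (Fin 2) ℤ) := by
  rw [Group.fg_iff]
  exact ⟨{ModularGroup.S, ModularGroup.T}, SpecialLinearGroup.SL2Z_generators, by simp⟩

/-- `Γ₀(N)` is a finitely generated subgroup of `SL(2, ℤ)`. -/
theorem gamma0_fg (N : ℕ) [NeZero N] : (CongruenceSubgroup.Gamma0 N).FG := by
  have := sl2z_fg
  have h : Group.FG (CongruenceSubgroup.Gamma0 N) := inferInstance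
  exact (Group.fg_iff_subgroup_fg _).mp h

/-- Abstract period-lattice lemma.  Let `H` be a finitely generated subgroup of a group `G`, and
let `c γ j` (`γ : G`, `j` in a finite type) be linear functionals on a complex vector space `S`
(think: the `j`-th coefficient of the period polynomial of a cusp form at `γ`).  Assume

* (cocycle rule, integral form) every `c (γ * δ) j` is an integral combination of the
  `c γ l` and the `c δ l`, for `γ, δ ∈ H`;
* (Hecke rule, integral form) for every `t` in a set `Ts` of endomorphisms, every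
  `c γ j ∘ t` (`γ ∈ H`) is an integral combination of functionals `c δ l` with `δ ∈ H`;
* (injectivity) the functionals `c γ j`, `γ ∈ H`, separate the points of `S`.

Then the `ℤ`-algebra generated by `Ts` is a finitely generated `ℤ`-module. -/
theorem finite_adjoin_of_cocycle
    {S : Type*} [AddCommGroup S] [Module ℂ S]
    {G : Type*} [Group G] (H : Subgroup G) (hH : H.FG)
    {ι : Type*} [Finite ι]
    (c : G → ι → Module.Dual ℂ S)
    (hmul : ∀ γ ∈ H, ∀ δ ∈ H, ∀ j,
      c (γ * δ) j ∈ Submodule.span ℤ (Set.range (c γ) ∪ Set.range (c δ)))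
    (Ts : Set (Module.End ℂ S))
    (htrans : ∀ t ∈ Ts, ∀ γ ∈ H, ∀ j,
      (c γ j) ∘ₗ t ∈ Submodule.span ℤ {r | ∃ δ ∈ H, ∃ l, r = c δ l})
    (hsep : ∀ f : S, (∀ γ ∈ H, ∀ j, c γ j f = 0) → f = 0) :
    Module.Finite ℤ (Algebra.adjoin ℤ Ts) := by
  classical
  obtain ⟨s, hs⟩ := hH
  -- the finite generating set, closed under inverses and containing `1`
  set gens : Set G := insert 1 ((s : Set G) ∪ (s : Set G)⁻¹) with hgens
  have hgens_fin : gens.Finite := by
    rw [hgens]
    exact (s.finite_toSet.union s.finite_toSet.inv).insert 1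
  have hsH : ∀ g ∈ (s : Set G), g ∈ H := fun g hg => hs ▸ Subgroup.subset_closure hg
  have hgensH : ∀ g ∈ gens, g ∈ H := by
    intro g hg
    rcases hg with rfl | hg | hg
    · exact H.one_mem
    · exact hsH g hg
    · have := hsH g⁻¹ (Set.mem_inv.mp hg)
      simpa using H.inv_mem this
  set R : Submodule ℤ (Module.Dual ℂ S) :=
    Submodule.span ℤ (⋃ g ∈ gens, Set.range (c g)) with hR
  have hRfg : R.FG := by
    apply Submodule.fg_span
    exact hgens_fin.biUnion fun g _ => Set.finite_range (c g)
  have hgenR : ∀ g ∈ gens, ∀ j, c g j ∈ R := fun g hg j =>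
    Submodule.subset_span (Set.mem_biUnion hg (Set.mem_range_self j))
  -- every coefficient functional at an element of `H` lies in `R`
  have key' : ∀ γ ∈ Submonoid.closure ((s : Set G) ∪ (s : Set G)⁻¹),
      γ ∈ H ∧ ∀ j, c γ j ∈ R := by
    intro γ hγ'
    induction hγ' using Submonoid.closure_induction with
    | mem x hx =>
      have hx' : x ∈ gens := Set.mem_insert_of_mem _ hx
      exact ⟨hgensH x hx', hgenR x hx'⟩
    | one => exact ⟨H.one_mem, hgenR 1 (Set.mem_insert _ _)⟩
    | mul x y _ _ hx hy =>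
      refine ⟨H.mul_mem hx.1 hy.1, fun j => ?_⟩
      refine Submodule.span_le.mpr ?_ (hmul x hx.1 y hy.1 j)
      rintro r (⟨l, rfl⟩ | ⟨l, rfl⟩)
      · exact hx.2 l
      · exact hy.2 l
  have key : ∀ γ ∈ H, ∀ j, c γ j ∈ R := by
    intro γ hγ
    have hγ' : γ ∈ Submonoid.closure ((s : Set G) ∪ (s : Set G)⁻¹) := by
      rw [← Subgroup.closure_toSubmonoid, hs]
      exact hγ
    exact (key' γ hγ').2
  refine Fermat.Agent.S22.finite_adjoin_of_lattice Ts R hRfg ?_ ?_
  · -- stability
    intro t ht r hr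
    induction hr using Submodule.span_induction with
    | mem x hx =>
      obtain ⟨g, hg, j, rfl⟩ : ∃ g ∈ gens, ∃ j, c g j = x := by
        simpa [Set.mem_iUnion] using hx
      refine Submodule.span_le.mpr ?_ (htrans t ht g (hgensH g hg) j)
      rintro r ⟨δ, hδ, l, rfl⟩
      exact key δ hδ l
    | zero => simp
    | add x y _ _ hx hy =>
      rw [LinearMap.add_comp]
      exact R.add_mem hx hy
    | smul n x _ hx =>
      rw [LinearMap.smul_comp]
      exact R.smul_mem n hx
  · -- separation
    intro v hv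
    exact hsep v fun γ hγ j => hv _ (key γ hγ j)

/-- The `j`-th coefficient of the period polynomial at `γ`, as a linear functional on the space
of cusp forms of weight `w + 2`. -/
def coeffFun (N : ℕ) (w : ℕ) (γ : SL(2, ℤ)) (j : Fin (w + 1)) :
    Module.Dual ℂ (CuspForm (CongruenceSubgroup.Gamma0 N) ((w : ℤ) + 2)) where
  toFun f := (per w ⇑f γ).coeff j
  map_add' f g := by rw [per_add, coeff_add]
  map_smul' c f := by rw [per_smul, coeff_smul]; rfl

theorem coeffFun_apply (N : ℕ) (w : ℕ) (γ : SL(2, ℤ)) (j : Fin (w + 1))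
    (f : CuspForm (CongruenceSubgroup.Gamma0 N) ((w : ℤ) + 2)) :
    coeffFun N w γ j f = (per w ⇑f γ).coeff j := rfl

/-- Coefficients of `polyAct` applied to a period polynomial, as an integral combination of
coefficient functionals. -/
theorem coeff_polyAct_per (N : ℕ) (w : ℕ) (A : Matrix (Fin 2) (Fin 2) ℤ) (γ : SL(2, ℤ))
    (i : ℕ) (f : CuspForm (CongruenceSubgroup.Gamma0 N) ((w : ℤ) + 2)) :
    (polyAct w A (per w ⇑f γ)).coeff i =
      (∑ l : Fin (w + 1), ((actPoly w A l).coeff i) • coeffFun N w γ l) f := by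
  rw [coeff_polyAct, Finset.sum_range, LinearMap.sum_apply]
  refine Finset.sum_congr rfl fun l _ => ?_
  rw [LinearMap.smul_apply, coeffFun_apply, zsmul_eq_mul]

end Fermat.Agent.S22.PeriodLattice

namespace Fermat.Agent.S22

open PeriodLattice in
/-- The Hecke algebra of weight `w + 2 ≥ 2` and level `Γ₀(N)` is a finitely generated
`ℤ`-module. -/
theorem finite_heckeAlgebra_of_two_le (N : ℕ) [NeZero N] (w : ℕ) (S : Set ℕ) :
    Module.Finite ℤ (CuspForm.heckeAlgebra N ((w : ℤ) + 2) S) := by
  refine finite_adjoin_of_cocycle (CongruenceSubgroup.Gamma0 N) (gamma0_fg N)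
    (coeffFun N w) ?_ (CuspForm.heckeGenerators N ((w : ℤ) + 2) S) ?_ ?_
  · -- cocycle rule
    intro γ hγ δ hδ j
    have h : coeffFun N w (γ * δ) j =
        (∑ l : Fin (w + 1),
          ((actPoly w (δ : Matrix (Fin 2) (Fin 2) ℤ) l).coeff j) • coeffFun N w γ l) +
          coeffFun N w δ j := by
      ext f
      rw [LinearMap.add_apply, ← coeff_polyAct_per, coeffFun_apply, coeffFun_apply,
        per_mul f hγ hδ, coeff_add]
    rw [h]
    refine Submodule.add_mem _ (Submodule.sum_mem _ fun l _ => Submodule.smul_mem _ _ ?_) ?_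
    · exact Submodule.subset_span (Or.inl ⟨l, rfl⟩)
    · exact Submodule.subset_span (Or.inr ⟨j, rfl⟩)
  · -- Hecke rule
    have key : ∀ (t : Module.End ℂ (CuspForm (CongruenceSubgroup.Gamma0 N) ((w : ℤ) + 2)))
        (γ : SL(2, ℤ)),
        (∃ (ι : Type) (_ : Fintype ι) (δ : ι → SL(2, ℤ)) (A : ι → Matrix (Fin 2) (Fin 2) ℤ),
          (∀ x, δ x ∈ CongruenceSubgroup.Gamma0 N) ∧
          ∀ f : CuspForm (CongruenceSubgroup.Gamma0 N) ((w : ℤ) + 2),
            per w ⇑(t f) γ = ∑ x, polyAct w (A x) (per w ⇑f (δ x))) →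
        ∀ j, (coeffFun N w γ j) ∘ₗ t ∈ Submodule.span ℤ
          {r | ∃ δ ∈ CongruenceSubgroup.Gamma0 N, ∃ l, r = coeffFun N w δ l} := by
      rintro t γ ⟨ι, _, δ, A, hδ, hf⟩ j
      have h : (coeffFun N w γ j) ∘ₗ t =
          ∑ x, ∑ l : Fin (w + 1), ((actPoly w (A x) l).coeff j) • coeffFun N w (δ x) l := by
        ext f
        rw [LinearMap.comp_apply, coeffFun_apply, hf f, finsetSum_coeff, LinearMap.sum_apply]
        exact Finset.sum_congr rfl fun x _ => coeff_polyAct_per N w (A x) (δ x) j f
      rw [h]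
      refine Submodule.sum_mem _ fun x _ => Submodule.sum_mem _ fun l _ =>
        Submodule.smul_mem _ _ (Submodule.subset_span ⟨δ x, hδ x, l, rfl⟩)
    intro t ht γ hγ j
    rcases ht with ⟨ℓ, hℓ, hℓN, -, rfl⟩ | ⟨q, hqN, -, -, rfl⟩
    · exact key _ γ (per_heckeT hℓ hℓN hγ) j
    · exact key _ γ (per_heckeU hqN hγ) j
  · -- separation
    intro f hf
    apply per_injective f
    intro γ hγ
    ext n
    rw [coeff_zero]
    by_cases hn : n < w + 1
    · exact hf γ hγ ⟨n, hn⟩
    · exact coeff_eq_zero_of_natDegree_lt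
        (lt_of_le_of_lt (per_natDegree_le f γ) (by omega))

end Fermat.Agent.S22

end
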