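-- S22 helper (piece C): reductions for the finiteness of the Hecke algebra.
--  * odd weight or weight ≤ 0: the space of cusp forms is zero;
--  * a general set `S` of excluded primes reduces to `S = ∅`.
import Mathlib
import Fermat.Prelude.Def_CuspForm_HeckeAlgebra
import Fermat.Prelude.Thm_ModularForm_sturm_bound_Gamma0
import Fermat.Prelude.Thm_CongruenceSubgroup_one_mem_strictPeriods_Gamma0

set_option autoImplicit false
open CuspForm ModularFormClass UpperHalfPlane
open ModularForm

namespace Fermat.Agent.S22.Reduce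

/-- (C2) Cusp forms of weight `≤ 0` on `Γ₀(N)` vanish (Sturm bound from the prelude). -/
theorem cuspForm_eq_zero_of_nonpos (N : ℕ) [NeZero N] (k : ℤ) (hk : k ≤ 0)
    (f : CuspForm (CongruenceSubgroup.Gamma0 N) k) : f = 0 := by
  have h0 : (ModularFormClass.modularForm f :
      ModularForm (Subgroup.map (Matrix.SpecialLinearGroup.mapGL ℝ)
        (CongruenceSubgroup.Gamma0 N)) k) = 0 := by
    apply ModularForm.sturm_bound_Gamma0 N
    intro n hn
    have hprod : k * ((CongruenceSubgroup.Gamma0 N).index : ℤ) ≤ 0 :=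
      mul_nonpos_of_nonpos_of_nonneg hk (Int.natCast_nonneg _)
    have htn : (k * ((CongruenceSubgroup.Gamma0 N).index : ℤ)).toNat = 0 :=
      Int.toNat_of_nonpos hprod
    have hn0 : n = 0 := by
      rw [htn] at hn
      simpa using hn
    subst hn0
    exact CuspFormClass.qExpansion_coeff_zero f one_pos
      (CongruenceSubgroup.one_mem_strictPeriods_Gamma0 N)
  ext z
  have hz := DFunLike.congr_fun h0 z
  simpa using hz

theorem neg_one_mem_Gamma0 (N : ℕ) :
    (-1 : Matrix.SpecialLinearGroup (Fin 2) ℤ) ∈ CongruenceSubgroup.Gamma0 N := by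
  simp [CongruenceSubgroup.Gamma0_mem]

theorem neg_one_mem_map_Gamma0 (N : ℕ) :
    (-1 : GL (Fin 2) ℝ) ∈ Subgroup.map (Matrix.SpecialLinearGroup.mapGL ℝ)
        (CongruenceSubgroup.Gamma0 N) := by
  refine ⟨-1, neg_one_mem_Gamma0 N, ?_⟩
  ext i j
  fin_cases i <;> fin_cases j <;> simp [Matrix.SpecialLinearGroup.mapGL]

/-- (C1) Cusp forms of odd weight on `Γ₀(N)` vanish (`-1 ∈ Γ₀(N)`). -/
theorem cuspForm_eq_zero_of_odd (N : ℕ) [NeZero N] (k : ℤ) (hk : Odd k)
    (f : CuspForm (CongruenceSubgroup.Gamma0 N) k) : f = 0 := by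
  have h0 : (ModularFormClass.modularForm f :
      ModularForm (Subgroup.map (Matrix.SpecialLinearGroup.mapGL ℝ)
        (CongruenceSubgroup.Gamma0 N)) k) = 0 :=
    ModularForm.eq_zero_of_neg_one_mem (neg_one_mem_map_Gamma0 N) hk _
  ext z
  have hz := DFunLike.congr_fun h0 z
  simpa using hz

/-- (C3) If the space of cusp forms is zero, the Hecke algebra is a finite `ℤ`-module. -/
theorem finite_of_forall_eq_zero (N : ℕ) [NeZero N] (k : ℤ) (S : Set ℕ)
    (h : ∀ f : CuspForm (CongruenceSubgroup.Gamma0 N) k, f = 0) :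
    Module.Finite ℤ (CuspForm.heckeAlgebra N k S) := by
  have : Subsingleton (CuspForm (CongruenceSubgroup.Gamma0 N) k) :=
    ⟨fun a b => (h a).trans (h b).symm⟩
  have : Subsingleton (Module.End ℂ (CuspForm (CongruenceSubgroup.Gamma0 N) k)) :=
    ⟨fun a b => LinearMap.ext fun x => Subsingleton.elim _ _⟩
  have : Subsingleton (CuspForm.heckeAlgebra N k S) :=
    ⟨fun a b => Subtype.ext (Subsingleton.elim _ _)⟩
  exact Module.Finite.of_finite

/-- (C4) Finiteness for `S = ∅` implies finiteness for every `S`. -/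
theorem finite_of_finite_empty (N : ℕ) [NeZero N] (k : ℤ) (S : Set ℕ)
    (h : Module.Finite ℤ (CuspForm.heckeAlgebra N k (∅ : Set ℕ))) :
    Module.Finite ℤ (CuspForm.heckeAlgebra N k S) := by
  have hle : CuspForm.heckeAlgebra N k S ≤ CuspForm.heckeAlgebra N k (∅ : Set ℕ) :=
    CuspForm.heckeAlgebra_mono (Set.empty_subset S)
  have : IsNoetherian ℤ (CuspForm.heckeAlgebra N k (∅ : Set ℕ)) :=
    isNoetherian_of_isNoetherianRing_of_finite ℤ _
  exact Module.Finite.of_injective (Subalgebra.inclusion hle).toLinearMap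
    (Subalgebra.inclusion_injective hle)

/-- (C5) Wrapper: the even-weight `k ≥ 2`, `S = ∅` case implies the full statement. -/
theorem finite_of_even_case
    (h : ∀ (N : ℕ) [NeZero N] (k : ℤ), 2 ≤ k → Even k →
      Module.Finite ℤ (CuspForm.heckeAlgebra N k (∅ : Set ℕ)))
    (N : ℕ) [NeZero N] (k : ℤ) (S : Set ℕ) :
    Module.Finite ℤ (CuspForm.heckeAlgebra N k S) := by
  rcases le_or_gt k 0 with hk | hk
  · exact finite_of_forall_eq_zero N k S (cuspForm_eq_zero_of_nonpos N k hk)
  · rcases Int.even_or_odd k with hev | hodd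
    · refine finite_of_finite_empty N k S (h N k ?_ hev)
      rcases hev with ⟨m, rfl⟩
      omega
    · exact finite_of_forall_eq_zero N k S (cuspForm_eq_zero_of_odd N k hodd)

end Fermat.Agent.S22.Reduce

namespace Fermat.Agent.S22

/-- P-RED (interface name): cusp forms of weight `≤ 1` on `Γ₀(N)` vanish. -/
theorem cuspForm_eq_zero_of_le_one (N : ℕ) [NeZero N] (k : ℤ) (hk : k ≤ 1)
    (f : CuspForm (CongruenceSubgroup.Gamma0 N) k) : f = 0 := by
  rcases le_or_gt k 0 with h0 | h0
  · exact Reduce.cuspForm_eq_zero_of_nonpos N k h0 f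
  · have h1 : k = 1 := le_antisymm hk h0
    subst h1
    exact Reduce.cuspForm_eq_zero_of_odd N 1 odd_one f

/-- P-RED (interface name): if all cusp forms vanish, the Hecke algebra is `ℤ`-finite. -/
theorem finite_heckeAlgebra_of_forall_eq_zero (N : ℕ) [NeZero N] (k : ℤ) (S : Set ℕ)
    (h : ∀ f : CuspForm (CongruenceSubgroup.Gamma0 N) k, f = 0) :
    Module.Finite ℤ (CuspForm.heckeAlgebra N k S) :=
  Reduce.finite_of_forall_eq_zero N k S h

end Fermat.Agent.S22
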